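import Fermat.Agent.ML.Count.Tau
import Fermat.Agent.RIB.Grow.Abs

/-!
# ML / TWFREE : `[GROW-ALL]`  (board #2577 (A3))

`X` a `p`-primary `p`-divisible abelian group, `s` an additive endomorphism with `s^P = 1`, `P = p^(n+1)`, and finitely many
fixed points.  Then `Ψ(s) = ∑_{j<P} s^j = 0`, and if every element of `D ⊆ X` is `p^n` times a fixed point of `s`, then
`#D ^ (P - 1) ≤ #X[p]` (all Jordan blocks of `y = s - 1` on `X[p]` through `D` are full).
-/

set_option autoImplicit false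

namespace Fermat.Agent.ML

open Submodule Finset

section Jordan

variable {R : Type*} [CommRing R] {Z : Type*} [AddCommGroup Z] [Module R Z]

theorem card_eq_card_ker_mul_map [Finite Z] (φ : Z →ₗ[R] Z) (U : Submodule R Z) :
    Nat.card U = Nat.card ↥(U ⊓ LinearMap.ker φ) * Nat.card ↥(U.map φ) := by
  let ψ : U →ₗ[R] Z := φ.domRestrict U
  have h1 : Nat.card U = Nat.card (LinearMap.ker ψ) * Nat.card (U ⧸ LinearMap.ker ψ) :=
    Submodule.card_eq_card_quotient_mul_card _
  have h2 : Nat.card (U ⧸ LinearMap.ker ψ) = Nat.card (LinearMap.range ψ) :=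
    Nat.card_congr ψ.quotKerEquivRange.toEquiv
  have h3 : LinearMap.range ψ = U.map φ := LinearMap.range_domRestrict _ _
  have h5 : LinearMap.ker ψ = (U ⊓ LinearMap.ker φ).comap U.subtype := by
    ext x
    simp only [LinearMap.mem_ker, Submodule.mem_comap, Submodule.mem_inf, Submodule.subtype_apply,
      x.2, true_and]
    rfl
  have h4 : Nat.card (LinearMap.ker ψ) = Nat.card ↥(U ⊓ LinearMap.ker φ) := by
    rw [h5]
    exact Nat.card_congr (Submodule.comapSubtypeEquivOfLe inf_le_left).toEquiv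
  rw [h1, h2, h4, h3]

/-- full Jordan blocks: `y^(m+1) = 0` ⟹ `#(y^m Z)^(m+1) ≤ #Z`. -/
theorem card_range_pow_le [Finite Z] (y : R) (m : ℕ) (hy : ∀ z : Z, y ^ (m + 1) • z = 0) :
    Nat.card ↥(LinearMap.range (LinearMap.lsmul R Z (y ^ m))) ^ (m + 1) ≤ Nat.card Z := by
  set K := LinearMap.range (LinearMap.lsmul R Z (y ^ m)) with hK
  have key : ∀ j i : ℕ, i + j = m + 1 →
      Nat.card K ^ j ≤ Nat.card ↥(LinearMap.range (LinearMap.lsmul R Z (y ^ i))) := by
    intro j
    induction j with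
    | zero =>
      intro i _
      rw [pow_zero]
      exact Nat.card_pos
    | succ j ih =>
      intro i hi
      have h1 := ih (i + 1) (by omega)
      have h2 := card_eq_card_ker_mul_map (LinearMap.lsmul R Z y)
        (LinearMap.range (LinearMap.lsmul R Z (y ^ i)))
      have h3 : (LinearMap.range (LinearMap.lsmul R Z (y ^ i))).map (LinearMap.lsmul R Z y) =
          LinearMap.range (LinearMap.lsmul R Z (y ^ (i + 1))) := by
        ext z
        constructor
        · rintro ⟨_, ⟨w, rfl⟩, rfl⟩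
          exact ⟨w, by simp only [LinearMap.lsmul_apply]; rw [pow_succ', mul_smul]⟩
        · rintro ⟨w, rfl⟩
          exact ⟨_, ⟨w, rfl⟩, by simp only [LinearMap.lsmul_apply]; rw [pow_succ', mul_smul]⟩
      have h4 : K ≤ LinearMap.range (LinearMap.lsmul R Z (y ^ i)) ⊓
          LinearMap.ker (LinearMap.lsmul R Z y) := by
        rintro _ ⟨w, rfl⟩
        refine ⟨⟨y ^ (m - i) • w, ?_⟩, ?_⟩
        · simp only [LinearMap.lsmul_apply]
          rw [← mul_smul, ← pow_add]
          congr 2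
          omega
        · rw [SetLike.mem_coe, LinearMap.mem_ker]
          simp only [LinearMap.lsmul_apply]
          rw [← mul_smul, ← pow_succ']
          exact hy w
      rw [h2, h3, pow_succ, mul_comm]
      exact Nat.mul_le_mul (card_le_of_le h4) h1
  have h0 := key (m + 1) 0 (by omega)
  refine h0.trans ?_
  exact Nat.card_le_card_of_injective _ Subtype.val_injective

end Jordan

section Main

variable {R X : Type*} [CommRing R] [AddCommGroup X] [Module R X]

/-- the norm vanishes. -/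
theorem norm_zero_mod (p P : ℕ)
    (hdiv : ∀ x : X, ∃ x', p • x' = x) (htors : ∀ x : X, ∃ k, p ^ k • x = 0)
    (s : R) (hs : ∀ x : X, s ^ P • x = x) (hfin : {x : X | s • x = x}.Finite) (x : X) :
    (∑ j ∈ range P, s ^ j) • x = 0 := by
  refine RIB.hom_zero_of_finite_range p (DistribSMul.toAddMonoidHom X (∑ j ∈ range P, s ^ j)) ?_
    hdiv htors x
  refine hfin.subset ?_
  rintro _ ⟨x, rfl⟩
  simp only [DistribSMul.toAddMonoidHom_apply, Set.mem_ofPred_eq]
  have h1 : (s - 1) * ∑ j ∈ range P, s ^ j = s ^ P - 1 := mul_geom_sum s P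
  have h2 : (s - 1) • (∑ j ∈ range P, s ^ j) • x = 0 := by
    rw [← mul_smul, h1, sub_smul, one_smul, hs, sub_self]
  rw [sub_smul, one_smul, sub_eq_zero] at h2
  exact h2

/-- **[GROW-ALL]**, module form. -/
theorem grow_all_mod (p n : ℕ) (hp : p.Prime)
    (hdiv : ∀ x : X, ∃ x', p • x' = x) (htors : ∀ x : X, ∃ k, p ^ k • x = 0)
    (s : R) (hs : ∀ x : X, s ^ p ^ (n + 1) • x = x) (hfin : {x : X | s • x = x}.Finite)
    (D : Set X) (hD : ∀ d ∈ D, ∃ c : X, s • c = c ∧ p ^ n • c = d) :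
    {x : X | p • x = 0}.Finite ∧ D.ncard ^ (p ^ (n + 1) - 1) ≤ {x : X | p • x = 0}.ncard := by
  have hXp : {x : X | p • x = 0}.Finite :=
    (RIB.grow_mod p n hp hdiv htors s hs hfin ∅ (by simp)).1
  refine ⟨hXp, ?_⟩
  set P := p ^ (n + 1) with hP
  have hP2 : 2 ≤ P := by
    calc 2 ≤ p := hp.two_le
      _ = p ^ 1 := (pow_one p).symm
      _ ≤ P := Nat.pow_le_pow_right hp.pos (by omega)
  obtain ⟨m, hm⟩ : ∃ m, P = m + 2 := ⟨P - 2, by omega⟩
  set y : R := s - 1 with hy
  have hsy : s = 1 + y := by rw [hy]; ring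
  have hΨ := norm_zero_mod p P hdiv htors s hs hfin
  have hbin : ∑ j ∈ range P, s ^ j = ∑ t ∈ range P, ((P.choose (t + 1) : ℕ) : R) * y ^ t := by
    rw [hsy]; exact geom_binom_eval y P
  -- `Ψ = P + y Θ`
  set Θ : R := ∑ t ∈ range (m + 1), ((P.choose (t + 2) : ℕ) : R) * y ^ t with hΘ
  have hsplit : ∑ j ∈ range P, s ^ j = (P : R) + y * Θ := by
    rw [hbin, hm, sum_range_succ', ← hm, hΘ, mul_sum, add_comm]
    congr 1
    · simp
    · refine sum_congr rfl fun t _ => ?_
      rw [pow_succ]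
      ring
  -- on `X[p]`
  have hΘp : ∀ z : X, p • z = 0 → Θ • z = y ^ m • z := by
    intro z hz
    rw [hΘ, sum_range_succ, add_smul, sum_smul]
    have e1 : ∑ t ∈ range m, (((P.choose (t + 2) : ℕ) : R) * y ^ t) • z = 0 := by
      refine sum_eq_zero fun t ht => ?_
      rw [mem_range] at ht
      obtain ⟨c, hc⟩ : p ∣ P.choose (t + 2) :=
        hp.dvd_choose_pow (by omega) (by rw [← hP]; omega)
      rw [mul_comm, mul_smul, Nat.cast_smul_eq_nsmul, hc, mul_comm, mul_smul, hz, smul_zero,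
        smul_zero]
    rw [e1, zero_add, ← hm, Nat.choose_self, Nat.cast_one, one_mul]
  have hyp : ∀ z : X, p • z = 0 → y ^ (m + 1) • z = 0 := by
    intro z hz
    have h1 := hΨ z
    rw [hsplit, add_smul, Nat.cast_smul_eq_nsmul, hP, pow_succ, mul_smul, hz, smul_zero, zero_add,
      mul_smul, hΘp z hz, ← mul_smul, ← pow_succ'] at h1
    exact h1
  -- the module `Z = X[p]`
  let Z : Submodule R X := torsionBy R X (p : R)
  have hmemZ : ∀ x : X, x ∈ Z ↔ p • x = 0 := by
    intro x
    rw [mem_torsionBy_iff, Nat.cast_smul_eq_nsmul]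
  have : Finite Z := by
    refine (hXp.subset ?_ : (Z : Set X).Finite)
    intro x hx
    exact (hmemZ x).1 hx
  have hJ := card_range_pow_le (R := R) (Z := Z) y m (fun z => Subtype.ext (by
    have := hyp z.1 ((hmemZ _).1 z.2)
    simpa using this))
  have hZcard : Nat.card Z = {x : X | p • x = 0}.ncard := by
    rw [← Nat.card_coe_set_eq]
    refine Nat.card_congr (Equiv.subtypeEquivRight fun x => ?_)
    exact hmemZ x
  have hDK : D.ncard ≤ Nat.card ↥(LinearMap.range (LinearMap.lsmul R Z (y ^ m))) := by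
    rw [← Nat.card_coe_set_eq]
    have hd : ∀ d : D, ∃ w : Z, y ^ m • (w : X) = d.1 := by
      intro d
      obtain ⟨c, hc1, hc2⟩ := hD d.1 d.2
      obtain ⟨t, ht⟩ := hdiv c
      have hyc : y • c = 0 := by rw [hy, sub_smul, one_smul, hc1, sub_self]
      have hyt : p • (y • t) = 0 := by rw [smul_comm, ht, hyc]
      refine ⟨⟨-(y • t), (hmemZ _).2 (by rw [smul_neg, hyt, neg_zero])⟩, ?_⟩
      have h1 := hΨ t
      rw [hsplit, add_smul, Nat.cast_smul_eq_nsmul, hP, pow_succ, mul_smul, ht, hc2, mul_comm,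
        mul_smul, hΘp _ hyt] at h1
      show y ^ m • (-(y • t)) = d.1
      rw [smul_neg]
      exact (eq_neg_of_add_eq_zero_left h1).symm
    choose w hw using hd
    refine Nat.card_le_card_of_injective
      (fun d => (⟨y ^ m • w d, ⟨w d, rfl⟩⟩ : ↥(LinearMap.range (LinearMap.lsmul R Z (y ^ m))))) ?_
    intro d d' h
    have h' : y ^ m • ((w d : Z) : X) = y ^ m • ((w d' : Z) : X) :=
      congrArg (fun z : ↥(LinearMap.range (LinearMap.lsmul R Z (y ^ m))) => ((z : Z) : X)) h
    rw [hw, hw] at h'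
    exact Subtype.ext h'
  have hexp : P - 1 = m + 1 := by omega
  rw [hexp, ← hZcard]
  exact (Nat.pow_le_pow_left hDK _).trans hJ

end Main

section Add

open Polynomial

variable {X : Type*} [AddCommGroup X]

/-- **[GROW-ALL]** + the norm vanishes, additive form. -/
theorem grow_all (p n : ℕ) (hp : p.Prime)
    (hdiv : ∀ x : X, ∃ x', p • x' = x) (htors : ∀ x : X, ∃ k, p ^ k • x = 0)
    (s : X →+ X) (hs : ∀ x : X, s^[p ^ (n + 1)] x = x) (hfin : {x : X | s x = x}.Finite)
    (D : Set X) (hD : ∀ d ∈ D, ∃ c : X, s c = c ∧ p ^ n • c = d) :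
    ({x : X | p • x = 0}.Finite ∧ D.ncard ^ (p ^ (n + 1) - 1) ≤ {x : X | p • x = 0}.ncard) ∧
      ∀ x : X, ∑ j ∈ range (p ^ (n + 1)), s^[j] x = 0 := by
  let _ : Module ℤ[X] X :=
    Module.compHom X (aeval s.toIntLinearMap : ℤ[X] →ₐ[ℤ] Module.End ℤ X).toRingHom
  have hX : ∀ (m : ℕ) (x : X), ((Polynomial.X : ℤ[X]) ^ m) • x = s^[m] x := by
    intro m x
    change (aeval s.toIntLinearMap ((Polynomial.X : ℤ[X]) ^ m)) x = _
    rw [map_pow, aeval_X, Module.End.pow_apply]
    rfl
  have hX1 : ∀ x : X, (Polynomial.X : ℤ[X]) • x = s x := by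
    intro x
    have := hX 1 x
    simpa using this
  refine ⟨grow_all_mod (R := ℤ[X]) p n hp hdiv htors Polynomial.X ?_ ?_ D ?_, fun x => ?_⟩
  · intro x; rw [hX, hs]
  · simpa only [hX1] using hfin
  · simpa only [hX1] using hD
  · have := norm_zero_mod (R := ℤ[X]) p (p ^ (n + 1)) hdiv htors Polynomial.X
      (by intro x; rw [hX, hs]) (by simpa only [hX1] using hfin) x
    rw [sum_smul] at this
    simpa only [hX] using this

end Add

section Hyp

open RIB.Grow RIB.Grow.Hyp

variable {V W : Type*} [AddCommGroup V] [AddCommGroup W]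
  {p l n : ℕ} {T : V →+ V} {io : Fin 3 → V →+ W} {Pi : Fin 3 → W →+ V} {τ : W →+ W}

/-- **(S3)** the norm of `τ` vanishes on the new part. -/
theorem Hyp_norm_zero (h : Hyp p l n T io Pi τ) (x : W) (hx : x ∈ Wnew Pi) :
    ∑ j ∈ range (p ^ n), τ^[j] x = 0 := by
  have hn : n = (n - 1) + 1 := by have := h.hn; omega
  have key := (grow_all (X := Wnew Pi) p (n - 1) h.hp h.Wnew_div h.Wnew_tors h.tauNew
    (fun x => by rw [← hn]; exact h.tauNew_ord x) h.finite_fix ∅ (by simp)).2 ⟨x, hx⟩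
  rw [← hn] at key
  have := congrArg Subtype.val key
  rw [AddSubgroup.val_finsetSum] at this
  simpa only [h.coe_tauNew_iter, AddSubgroup.coe_zero] using this

/-- **(S4)** `#V[p]^(p^n - 1) ≤ #N[p]`, `N` the new part. -/
theorem Hyp_grow_all (h : Hyp p l n T io Pi τ) :
    {x : Wnew Pi | p • x = 0}.Finite ∧
      {v : V | p • v = 0}.ncard ^ (p ^ n - 1) ≤ {x : Wnew Pi | p • x = 0}.ncard := by
  have hn : n = (n - 1) + 1 := by have := h.hn; omega
  set D : Set (Wnew Pi) := {x | ∃ w : V, p • w = 0 ∧ xv T io w = x} with hD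
  have key := (grow_all (X := Wnew Pi) p (n - 1) h.hp h.Wnew_div h.Wnew_tors h.tauNew
    (fun x => by rw [← hn]; exact h.tauNew_ord x) h.finite_fix D (by
      rintro d ⟨w, hw, hd⟩
      obtain ⟨c, hc, hcw⟩ := h.exists_mem_Cgrp w hw
      exact ⟨c, h.Cgrp_fix c hc, Subtype.ext (by rw [hcw, hd])⟩)).1
  have h1 : D.ncard = {v : V | p • v = 0}.ncard := by
    rw [← Set.ncard_image_of_injective D Subtype.val_injective]
    have : Subtype.val '' D = xv T io '' {v : V | p • v = 0} := by
      ext x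
      constructor
      · rintro ⟨d, ⟨w, hw, hd⟩, rfl⟩
        exact ⟨w, hw, hd⟩
      · rintro ⟨w, hw, rfl⟩
        have hl : (l - 1) • w = 0 := by
          obtain ⟨c, hc⟩ := h.hdvd
          have hw' : p • w = 0 := hw
          have e : p ^ n * c = (p ^ (n - 1) * c) * p := by
            conv_lhs => rw [hn, pow_succ]
            ring
          rw [hc, e, mul_smul, hw', smul_zero]
        exact ⟨⟨xv T io w, h.xv_mem w hl⟩, ⟨w, hw, rfl⟩, rfl⟩
    rw [this]
    refine Set.ncard_image_of_injective _ ?_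
    exact (injective_iff_map_eq_zero _).2 h.xv_inj
  rw [← hn] at key
  rw [← h1]
  exact key

end Hyp

end Fermat.Agent.ML
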