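import Fermat.Agent.ML.Count.BoxZ
import Fermat.Agent.ML.Raise.Big

/-!
# ML / COUNT : bridge  [BOXFREE] ⟹ `Raise.IsBoxBasis`

`A` ANY commutative ring, `z : Fin r → A`, `X` a finite `A`-module.

* `exists_isBoxBasis` : `p^a X = 0`, `z_i^a X = 0`, `#X[p,z] ≤ p^D`, `p^(D a^(r+1)) ≤ #X`
  ⟹ `∃ e : Fin D → X, Raise.IsBoxBasis p a z e`.
* `exists_isBoxBasis_box` : the same for the box `⨅ i, torsionBy A X (z i ^ a)` of a module killed by `p^a`
  (hypotheses = hypotheses / conclusion of `box_ge`, `box_of_tau`).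
-/

set_option autoImplicit false

namespace Fermat.Agent.ML

open Submodule MvPolynomial

theorem coeff_dvd_of_mem_boxIdeal {r : ℕ} (p n : ℕ) {g : MvPolynomial (Fin r) ℤ}
    (hg : g ∈ boxIdeal p (X : Fin r → MvPolynomial (Fin r) ℤ) n) (α : Fin r →₀ ℕ)
    (hα : ∀ i, α i < n) : (p : ℤ) ^ n ∣ coeff α g := by
  classical
  obtain ⟨g1, h1, g2, h2, rfl⟩ := Submodule.mem_sup.1 hg
  obtain ⟨c, rfl⟩ := Ideal.mem_span_singleton'.1 h1
  obtain ⟨d, rfl⟩ := (Ideal.mem_span_range_iff_exists_fun).1 h2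
  rw [coeff_add, coeff_sum]
  have e1 : ((p : MvPolynomial (Fin r) ℤ)) ^ n = C ((p : ℤ) ^ n) := by
    rw [map_pow, map_natCast]
  have e2 : ∑ i, coeff α (d i * X i ^ n) = 0 := by
    refine Finset.sum_eq_zero fun i _ => ?_
    rw [X_pow_eq_monomial, coeff_mul_monomial', if_neg]
    rw [Finsupp.single_le_iff]
    exact not_le.2 (hα i)
  rw [e1, mul_comm c, coeff_C_mul, e2, add_zero]
  exact Dvd.intro _ rfl

section aux

variable {A : Type*} [CommRing A] {Y : Type*} [AddCommGroup Y] [Module A Y]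

theorem exists_isBoxBasis_aux (p : ℕ) [Fact p.Prime] [Finite Y] {r D a : ℕ} (ha : 1 ≤ a)
    (z : Fin r → A) [Module (MvPolynomial (Fin r) ℤ) Y]
    (hS : ∀ (g : MvPolynomial (Fin r) ℤ) (x : Y), g • x = aeval z g • x)
    (hpa : ∀ x : Y, (p : A) ^ a • x = 0) (hza : ∀ (i : Fin r) (x : Y), z i ^ a • x = 0)
    (hcogen : Nat.card ↥(torsionBy A Y (p : A) ⊓ ⨅ i, torsionBy A Y (z i)) ≤ p ^ D)
    (hsize : p ^ (D * a ^ (r + 1)) ≤ Nat.card Y) :
    ∃ e : Fin D → Y, Raise.IsBoxBasis p a z e := by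
  classical
  obtain ⟨J, rfl⟩ : ∃ J, a = J + 1 := ⟨a - 1, by omega⟩
  have htop : (⨅ i, torsionBy (MvPolynomial (Fin r) ℤ) Y
      ((X i : MvPolynomial (Fin r) ℤ) ^ (J + 1))) = ⊤ := by
    rw [eq_top_iff]
    intro x _
    rw [Submodule.mem_iInf]
    intro i
    rw [mem_torsionBy_iff, hS, map_pow, aeval_X]
    exact hza i x
  have hc1 : Nat.card ↥(torsionBy (MvPolynomial (Fin r) ℤ) Y (p : MvPolynomial (Fin r) ℤ) ⊓
      ⨅ i, torsionBy (MvPolynomial (Fin r) ℤ) Y (X i : MvPolynomial (Fin r) ℤ)) =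
      Nat.card ↥(torsionBy A Y (p : A) ⊓ ⨅ i, torsionBy A Y (z i)) := by
    refine Nat.card_congr (Equiv.subtypeEquivRight fun x => ?_)
    simp only [Submodule.mem_inf, Submodule.mem_iInf, mem_torsionBy_iff, hS, map_natCast, aeval_X]
  obtain ⟨f, hf, -⟩ := boxfree_basis (A := MvPolynomial (Fin r) ℤ) (X := Y) p
    (X : Fin r → MvPolynomial (Fin r) ℤ) J D (mvPolynomial_res p)
    (fun x => by rw [hS, map_pow, map_natCast]; exact hpa x)
    (by rw [hc1]; exact hcogen)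
    (by
      rw [htop, Fintype.card_fin]
      exact hsize.trans (le_of_eq (Nat.card_congr (Submodule.topEquiv).toEquiv).symm))
  refine ⟨f, hpa, hza, ?_, ?_⟩
  · intro x
    obtain ⟨c, hc⟩ := hf.span x (by rw [htop]; trivial)
    refine ⟨c, ?_⟩
    rw [← hc]
    exact Finset.sum_congr rfl fun u _ => hS _ _
  · intro g hg u α hα
    refine coeff_dvd_of_mem_boxIdeal p (J + 1) (hf.ker g ?_ u) α hα
    rw [← hg]
    exact Finset.sum_congr rfl fun u _ => hS _ _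

/-- **[BOXFREE] ⟹ `IsBoxBasis`.** -/
theorem exists_isBoxBasis (p : ℕ) [Fact p.Prime] [Finite Y] {r D a : ℕ} (ha : 1 ≤ a)
    (z : Fin r → A)
    (hpa : ∀ x : Y, (p : A) ^ a • x = 0) (hza : ∀ (i : Fin r) (x : Y), z i ^ a • x = 0)
    (hcogen : Nat.card ↥(torsionBy A Y (p : A) ⊓ ⨅ i, torsionBy A Y (z i)) ≤ p ^ D)
    (hsize : p ^ (D * a ^ (r + 1)) ≤ Nat.card Y) :
    ∃ e : Fin D → Y, Raise.IsBoxBasis p a z e :=
  @exists_isBoxBasis_aux A _ Y _ _ p _ _ r D a ha z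
    (Module.compHom Y (aeval z : MvPolynomial (Fin r) ℤ →ₐ[ℤ] A).toRingHom)
    (fun _ _ => rfl) hpa hza hcogen hsize

/-- The same for the box of a module killed by `p ^ a`: hypotheses of `box_ge`. -/
theorem exists_isBoxBasis_box (p : ℕ) [Fact p.Prime] [Finite Y] {r D a : ℕ} (ha : 1 ≤ a)
    (z : Fin r → A) (hpa : ∀ x : Y, (p : A) ^ a • x = 0)
    (hcogen : Nat.card ↥(torsionBy A Y (p : A) ⊓ ⨅ i, torsionBy A Y (z i)) ≤ p ^ D)
    (hbox : p ^ (D * a ^ (r + 1)) ≤ Nat.card ↥(⨅ i, torsionBy A Y (z i ^ a))) :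
    ∃ e : Fin D → ↥(⨅ i, torsionBy A Y (z i ^ a)), Raise.IsBoxBasis p a z e := by
  refine exists_isBoxBasis p ha z (fun x => Subtype.ext (hpa x.1)) ?_ ?_ hbox
  · intro i x
    refine Subtype.ext ?_
    have := x.2
    rw [Submodule.mem_iInf] at this
    exact (mem_torsionBy_iff _ _).1 (this i)
  · refine le_trans ?_ hcogen
    refine Nat.card_le_card_of_injective
      (fun x => (⟨x.1.1, ?_⟩ : ↥(torsionBy A Y (p : A) ⊓ ⨅ i, torsionBy A Y (z i)))) ?_
    · have h := x.2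
      simp only [Submodule.mem_inf, Submodule.mem_iInf, mem_torsionBy_iff] at h ⊢
      exact ⟨congrArg Subtype.val h.1, fun i => congrArg Subtype.val (h.2 i)⟩
    · intro x y hxy
      have h : (x.1.1 : Y) = y.1.1 := by
        have := Subtype.ext_iff.1 hxy
        exact this
      exact Subtype.ext (Subtype.ext h)

end aux

end Fermat.Agent.ML
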