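import Fermat.Agent.ML.Count.Tau

/-!
# ML / COUNT : `[COUNT-MIN]`

`X` a finite `A`-module killed by `p^a`, `z_i` (`i ∈ ι`) the tame parameters, `x_k` (`k ∈ κ`) the generators of
`PP = ker (A → ℤ/p^a)`.

* `pow_smul_eq_zero_of_pow` (LINK 1) : `t^e` kills `X[𝔞]` ⟹ `t^(e J)` kills `X[𝔞^J]`.
* `span_pow_card_mul_le` (LINK 2) : `(g_k)^(#κ a + 1) ≤ (g_k^a)`.
* `count_min` : `#X[z_i^a] ≥ p^(d a^(r+1))`, `x_k^e X[p,z] = 0`, `#X[x] ≤ p^c` ⟹ `d a^(r+1) ≤ c (e ((r+1) a + 1))^(#κ)`.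
* `count_main` : the same from `[TAU]`, `[COGEN]`, `[SIZE]`.
-/

set_option autoImplicit false

namespace Fermat.Agent.ML

open Submodule

variable {A : Type*} [CommRing A] {X : Type*} [AddCommGroup X] [Module A X]

/-- (LINK 1) -/
theorem pow_smul_eq_zero_of_pow (𝔞 : Ideal A) (t : A) (e : ℕ)
    (ht : ∀ w : X, (∀ s ∈ 𝔞, s • w = 0) → t ^ e • w = 0) (J : ℕ) :
    ∀ w : X, (∀ s ∈ 𝔞 ^ J, s • w = 0) → t ^ (e * J) • w = 0 := by
  induction J with
  | zero =>
    intro w hw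
    have := hw 1 (by simp)
    rw [one_smul] at this
    rw [this, smul_zero]
  | succ J ih =>
    intro w hw
    rw [mul_add, mul_one, pow_add, mul_smul]
    refine ih _ fun s hs => ?_
    rw [smul_comm]
    refine ht _ fun u hu => ?_
    rw [← mul_smul]
    refine hw _ ?_
    rw [pow_succ, mul_comm u s]
    exact Ideal.mul_mem_mul hs hu

/-- (LINK 2) -/
theorem span_pow_card_mul_le {κ : Type*} (g : κ → A) (a : ℕ) (s : Finset κ) :
    Ideal.span (g '' (s : Set κ)) ^ (s.card * a + 1) ≤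
      Ideal.span ((fun k => g k ^ a) '' (s : Set κ)) := by
  classical
  induction s using Finset.induction_on with
  | empty => simp
  | insert k s hk ih =>
    rw [Finset.card_insert_of_notMem hk, Finset.coe_insert, Set.image_insert_eq,
      Set.image_insert_eq, Ideal.span_insert, Ideal.span_insert, add_mul, one_mul,
      add_comm (s.card * a) a, add_assoc]
    refine (Ideal.sup_pow_add_le_pow_sup_pow).trans (sup_le_sup ?_ ih)
    rw [Ideal.span_singleton_pow]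

theorem smul_eq_zero_of_mem_span {s : Set A} {w : X} (h : ∀ t ∈ s, t • w = 0) :
    ∀ t ∈ Ideal.span s, t • w = 0 := by
  have : Ideal.span s ≤ Ideal.torsionOf A X w := by
    rw [Ideal.span_le]
    intro t ht
    exact (Ideal.mem_torsionOf_iff w t).2 (h t ht)
  intro t ht
  exact (Ideal.mem_torsionOf_iff w t).1 (this ht)

/-- **[COUNT-MIN]** -/
theorem count_min [Finite X] {ι κ : Type*} [Fintype ι] [Fintype κ] (p a c d e : ℕ) (hp : 1 < p)
    (z : ι → A) (x : κ → A)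
    (hpa : ∀ w : X, (p : A) ^ a • w = 0)
    (hbox : p ^ (d * a ^ (Fintype.card ι + 1)) ≤ Nat.card ↥(⨅ i, torsionBy A X (z i ^ a)))
    (hnil : ∀ (k : κ) (w : X), (p : A) • w = 0 → (∀ i, z i • w = 0) → x k ^ e • w = 0)
    (hP : Nat.card ↥(⨅ k, torsionBy A X (x k)) ≤ p ^ c) :
    d * a ^ (Fintype.card ι + 1) ≤ c * (e * ((Fintype.card ι + 1) * a + 1)) ^ Fintype.card κ := by
  classical
  set j := e * ((Fintype.card ι + 1) * a + 1) with hj
  -- the generators `p, z_i`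
  let g : Option ι → A := fun o => o.elim (p : A) z
  set 𝔞 : Ideal A := Ideal.span (g '' ((Finset.univ : Finset (Option ι)) : Set (Option ι))) with h𝔞
  have hle : (⨅ i, torsionBy A X (z i ^ a)) ≤ ⨅ k, torsionBy A X (x k ^ j) := by
    intro w hw
    simp only [Submodule.mem_iInf, mem_torsionBy_iff] at hw ⊢
    intro k
    refine pow_smul_eq_zero_of_pow 𝔞 (x k) e (fun w' hw' => ?_) _ w (fun s hs => ?_)
    · refine hnil k w' (hw' _ (Ideal.subset_span ⟨none, by simp, rfl⟩)) fun i => ?_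
      exact hw' _ (Ideal.subset_span ⟨some i, by simp, rfl⟩)
    · have h1 := span_pow_card_mul_le g a (Finset.univ : Finset (Option ι))
      rw [Finset.card_univ, Fintype.card_option] at h1
      refine smul_eq_zero_of_mem_span ?_ s (h1 hs)
      rintro _ ⟨o, -, rfl⟩
      cases o with
      | none => exact hpa w
      | some i => exact hw i
  have h2 := card_iInf_torsionBy_pow_le x (fun _ => j) Finset.univ (⊤ : Submodule A X)
  simp only [Finset.mem_univ, iInf_pos, top_inf_eq, Finset.prod_const, Finset.card_univ] at h2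
  have h3 : p ^ (d * a ^ (Fintype.card ι + 1)) ≤ p ^ (c * j ^ Fintype.card κ) := by
    calc _ ≤ _ := hbox
      _ ≤ _ := card_le_of_le hle
      _ ≤ _ := h2
      _ ≤ (p ^ c) ^ (j ^ Fintype.card κ) := Nat.pow_le_pow_left hP _
      _ = _ := by rw [← pow_mul]
  exact (Nat.pow_le_pow_iff_right hp).1 h3

/-- **[BOX]** from `[TAU]`. -/
theorem box_of_tau [Finite X] {ι : Type*} [Fintype ι] {p a d : ℕ} (hp : p.Prime)
    (hp2 : p ≠ 2) (ν : ι → ℕ) (hν : ∀ i, 2 * a ≤ ν i)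
    (τ τ' : ι → X →ₗ[A] X) (h1 : ∀ i x, τ i (τ' i x) = x) (h2 : ∀ i x, τ' i (τ i x) = x)
    (z : ι → A) (hz : ∀ i x, z i • x = τ i x + τ' i x - (2 : ℕ) • x)
    (hG : ∀ i x, ∑ j ∈ Finset.range (p ^ ν i), (τ i ^ j) x = 0)
    (hpa : ∀ x : X, (p : A) ^ a • x = 0)
    (hcogen : Nat.card ↥(torsionBy A X (p : A) ⊓ ⨅ i, torsionBy A X (z i)) ≤ p ^ d)
    (hsize : p ^ (d * (a * ∏ i, (p ^ ν i - 1) / 2)) ≤ Nat.card X) :
    p ^ (d * a ^ (Fintype.card ι + 1)) ≤ Nat.card ↥(⨅ i, torsionBy A X (z i ^ a)) := by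
  have H := fun i => exists_h_of_tau hp hp2 (hν i) (τ i) (τ' i) (h1 i) (h2 i) (z i) (hz i) (hG i) hpa
  choose haN h hzh hh hN using H
  exact box_ge p a d hp.pos z h (fun i => (p ^ ν i - 1) / 2) haN hpa hzh hh hN hcogen hsize

/-- **[COUNT-MIN]** from `[TAU]`, `[COGEN]`, `[SIZE]`, `[NIL]`. -/
theorem count_main [Finite X] {ι κ : Type*} [Fintype ι] [Fintype κ] {p a c d e : ℕ} (hp : p.Prime)
    (hp2 : p ≠ 2) (ν : ι → ℕ) (hν : ∀ i, 2 * a ≤ ν i)
    (τ τ' : ι → X →ₗ[A] X) (h1 : ∀ i x, τ i (τ' i x) = x) (h2 : ∀ i x, τ' i (τ i x) = x)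
    (z : ι → A) (hz : ∀ i x, z i • x = τ i x + τ' i x - (2 : ℕ) • x)
    (hG : ∀ i x, ∑ j ∈ Finset.range (p ^ ν i), (τ i ^ j) x = 0)
    (hpa : ∀ x : X, (p : A) ^ a • x = 0)
    (hcogen : Nat.card ↥(torsionBy A X (p : A) ⊓ ⨅ i, torsionBy A X (z i)) ≤ p ^ d)
    (hsize : p ^ (d * (a * ∏ i, (p ^ ν i - 1) / 2)) ≤ Nat.card X)
    (x : κ → A)
    (hnil : ∀ (k : κ) (w : X), (p : A) • w = 0 → (∀ i, z i • w = 0) → x k ^ e • w = 0)
    (hP : Nat.card ↥(⨅ k, torsionBy A X (x k)) ≤ p ^ c) :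
    d * a ^ (Fintype.card ι + 1) ≤ c * (e * ((Fintype.card ι + 1) * a + 1)) ^ Fintype.card κ :=
  count_min p a c d e hp.one_lt z x hpa
    (box_of_tau hp hp2 ν hν τ τ' h1 h2 z hz hG hpa hcogen hsize) hnil hP

/-- the final arithmetic: with `#κ ≤ r = #ι` the inequality of `count_main` bounds `a`. -/
theorem count_arith {r s a c d e : ℕ} (hs : s ≤ r) (ha : 0 < a) (he : 0 < e)
    (h : d * a ^ (r + 1) ≤ c * (e * ((r + 1) * a + 1)) ^ s) : d * a ≤ c * (e * (r + 2)) ^ r := by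
  have h1 : e * ((r + 1) * a + 1) ≤ (e * (r + 2)) * a := by
    have : (r + 1) * a + 1 ≤ (r + 2) * a := by nlinarith
    calc _ ≤ e * ((r + 2) * a) := Nat.mul_le_mul_left _ this
      _ = _ := by ring
  have h0 : 0 < (e * (r + 2)) * a := by positivity
  have h2 : (e * ((r + 1) * a + 1)) ^ s ≤ ((e * (r + 2)) * a) ^ r :=
    (Nat.pow_le_pow_left h1 s).trans (Nat.pow_le_pow_right h0 hs)
  have h3 : d * a * a ^ r ≤ c * (e * (r + 2)) ^ r * a ^ r := by
    calc d * a * a ^ r = d * a ^ (r + 1) := by ring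
      _ ≤ _ := h
      _ ≤ c * ((e * (r + 2)) * a) ^ r := Nat.mul_le_mul_left _ h2
      _ = _ := by rw [mul_pow]; ring
  exact Nat.le_of_mul_le_mul_right h3 (pow_pos ha r)

end Fermat.Agent.ML
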