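import Mathlib
import Fermat.Agent.RIB.Nil

/-!
# ML / Count / Soc : the torsion-side kernel of [COUNT-LIFT]

`A` any commutative ring, `V` any `A`-module, `soc y j = V[(y)^j]` (helper16's `RIB.soc`).

* `mem_soc_add_iff`, `mem_soc_iff_sym` (S1), `mem_soc_iff_ideal` (S7) : descriptions of `soc y j` by monomials / by the ideal `(y)^j`;
* `soc_le_soc_mul` (S4) : `V[a] ≤ V[(x)^E] ⟹ V[(a)^J] ≤ V[(x)^(E J)]`;
* `card_soc_succ_le` (S2), `card_soc_le` (S3) : `#V[(y)^j] ≤ (#V[y])^(choose (r+j) (r+1))` for `r+1` generators;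
* `le_soc_of_card_lt` (S5) : a submodule with `< 2^D` elements on which `(x)` is nilpotent is killed by `(x)^D`;
* `count_num`, `count_lift` (S6) : `d J ≤ c E^R (R+1)`.
-/

set_option autoImplicit false

namespace Fermat.Agent.ML.Count.Soc

open Fermat.Agent.RIB

variable {A : Type*} [CommRing A] {V : Type*} [AddCommGroup V] [Module A V] {ι : Type*}

/-- the monomial attached to `s : Sym ι j`. -/
def mon (y : ι → A) {j : ℕ} (s : Sym ι j) : A := ((s : Multiset ι).map y).prod

theorem mon_cons (y : ι → A) {j : ℕ} (i : ι) (s : Sym ι j) : mon y (i ::ₛ s) = y i * mon y s := by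
  rw [mon, mon, Sym.coe_cons, Multiset.map_cons, Multiset.prod_cons]

theorem mon_nil (y : ι → A) (s : Sym ι 0) : mon y s = 1 := by
  rw [Sym.eq_nil_of_card_zero s]
  simp [mon]

/-- `w ∈ V[(y)^(n+m)]` iff every monomial of degree `n` maps `w` into `V[(y)^m]`. -/
theorem mem_soc_add_iff (y : ι → A) (m : ℕ) : ∀ (n : ℕ) (w : V),
    w ∈ soc y (n + m) ↔ ∀ s : Sym ι n, mon y s • w ∈ soc y m := by
  intro n
  induction n with
  | zero =>
    intro w
    rw [Nat.zero_add]
    constructor
    · intro h s
      rw [mon_nil, one_smul]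
      exact h
    · intro h
      have := h Sym.nil
      rwa [mon_nil, one_smul] at this
  | succ n ih =>
    intro w
    rw [Nat.succ_add, mem_soc_succ]
    constructor
    · intro h s
      obtain ⟨i, s', rfl⟩ := Sym.exists_eq_cons_of_succ s
      rw [mon_cons, mul_comm, mul_smul]
      exact (ih _).1 (h i) s'
    · intro h i
      rw [ih]
      intro s
      have := h (i ::ₛ s)
      rwa [mon_cons, mul_comm, mul_smul] at this

/-- **(S1)** -/
theorem mem_soc_iff_sym (y : ι → A) (j : ℕ) (w : V) :
    w ∈ soc y j ↔ ∀ s : Sym ι j, mon y s • w = 0 := by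
  have := mem_soc_add_iff y 0 j w
  rw [Nat.add_zero] at this
  rw [this]
  rfl

/-- **(S7)** `soc y j = V[I^j]`, `I = (y)`. -/
theorem mem_soc_iff_ideal (y : ι → A) : ∀ (j : ℕ) (w : V),
    w ∈ soc y j ↔ ∀ t ∈ Ideal.span (Set.range y) ^ j, t • w = 0 := by
  intro j
  induction j with
  | zero =>
    intro w
    rw [mem_soc_zero]
    constructor
    · rintro rfl t -
      exact smul_zero t
    · intro h
      have := h 1 (by simp)
      rwa [one_smul] at this
  | succ j ih =>
    intro w
    rw [mem_soc_succ]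
    constructor
    · intro h t ht
      rw [pow_succ] at ht
      refine Submodule.mul_induction_on ht ?_ ?_
      · intro u hu v hv
        induction hv using Submodule.span_induction with
        | mem v hv =>
          obtain ⟨i, rfl⟩ := hv
          rw [mul_smul]
          exact (ih _).1 (h i) u hu
        | zero => rw [mul_zero, zero_smul]
        | add v v' _ _ hv hv' => rw [mul_add, add_smul, hv, hv', add_zero]
        | smul c v _ hv =>
          rw [smul_eq_mul, mul_left_comm, mul_smul, hv, smul_zero]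
      · intro u v hu hv
        rw [add_smul, hu, hv, add_zero]
    · intro h i
      rw [ih]
      intro u hu
      rw [← mul_smul]
      apply h
      rw [pow_succ]
      exact Ideal.mul_mem_mul hu (Ideal.subset_span ⟨i, rfl⟩)

/-- **(S4)** `V[a] ≤ V[(x)^E] ⟹ V[(a)^J] ≤ V[(x)^(E J)]`. -/
theorem soc_le_soc_mul {κ : Type*} {a : ι → A} {x : κ → A} {E : ℕ}
    (h : (soc a 1 : Submodule A V) ≤ soc x E) (J : ℕ) :
    (soc a J : Submodule A V) ≤ soc x (E * J) := by
  induction J with
  | zero =>
    intro w hw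
    rw [mem_soc_zero.1 hw]
    exact Submodule.zero_mem _
  | succ J ih =>
    intro w hw
    rw [Nat.mul_succ, mem_soc_add_iff]
    intro s
    apply h
    rw [mem_soc_one]
    intro i
    rw [smul_comm]
    exact (mem_soc_iff_sym x _ _).1 (ih (mem_soc_succ.1 hw i)) s

section Card

variable [Finite V]

/-- **(S2)** -/
theorem card_soc_succ_le [Finite ι] (y : ι → A) (j : ℕ) :
    Nat.card (soc y (j + 1) : Submodule A V) ≤
      Nat.card (soc y j : Submodule A V) * Nat.card (soc y 1 : Submodule A V) ^ Nat.card (Sym ι j) := by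
  classical
  have := Fintype.ofFinite ι
  -- the map `w ↦ (mon s • w)_s`
  let f : ↥(soc y (j + 1) : Submodule A V) →+ (Sym ι j → ↥(soc y 1 : Submodule A V)) :=
    { toFun := fun w s => ⟨mon y s • (w : V), (mem_soc_add_iff y 1 j _).1 w.2 s⟩
      map_zero' := by
        funext s
        exact Subtype.ext (smul_zero _)
      map_add' := fun w w' => by
        funext s
        exact Subtype.ext (smul_add _ _ _) }
  have h1 : Nat.card ↥(soc y (j + 1) : Submodule A V) =
      Nat.card (↥(soc y (j + 1) : Submodule A V) ⧸ f.ker) * Nat.card f.ker :=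
    AddSubgroup.card_eq_card_quotient_mul_card_addSubgroup f.ker
  have h2 : Nat.card (↥(soc y (j + 1) : Submodule A V) ⧸ f.ker) ≤
      Nat.card (Sym ι j → ↥(soc y 1 : Submodule A V)) := by
    rw [Nat.card_congr (QuotientAddGroup.quotientKerEquivRange f).toEquiv]
    exact Nat.card_le_card_of_injective _ Subtype.val_injective
  have h3 : Nat.card f.ker ≤ Nat.card (soc y j : Submodule A V) := by
    refine Nat.card_le_card_of_injective
      (fun w : f.ker => (⟨((w : ↥(soc y (j + 1) : Submodule A V)) : V), ?_⟩ :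
        ↥(soc y j : Submodule A V))) ?_
    · rw [mem_soc_iff_sym]
      intro s
      have := congrFun (f.mem_ker.1 w.2) s
      exact congrArg Subtype.val this
    · intro w w' hww
      have : ((w : ↥(soc y (j + 1) : Submodule A V)) : V) = ((w' : ↥(soc y (j + 1) : Submodule A V)) : V) :=
        congrArg (fun z : ↥(soc y j : Submodule A V) => (z : V)) hww
      exact Subtype.ext (Subtype.ext this)
  rw [h1, mul_comm]
  refine Nat.mul_le_mul h3 (h2.trans ?_)
  rw [Nat.card_fun]

theorem sum_choose_aux (r j : ℕ) :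
    ∑ i ∈ Finset.range j, (r + i).choose i = (r + j).choose (r + 1) := by
  induction j with
  | zero => simp
  | succ j ih =>
    rw [Finset.sum_range_succ, ih, ← Nat.add_assoc, Nat.choose_succ_succ (r + j) r,
      Nat.choose_symm_add, add_comm]

/-- **(S3)** `#V[(y)^j] ≤ (#V[y])^(choose (r+j) (r+1))` for `r + 1` generators. -/
theorem card_soc_le [Fintype ι] (y : ι → A) {r : ℕ} (hr : Fintype.card ι = r + 1) (j : ℕ) :
    Nat.card (soc y j : Submodule A V) ≤
      Nat.card (soc y 1 : Submodule A V) ^ (r + j).choose (r + 1) := by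
  classical
  rw [← sum_choose_aux]
  induction j with
  | zero =>
    simp only [Finset.range_zero, Finset.sum_empty, pow_zero]
    have : (soc y 0 : Submodule A V) = ⊥ := rfl
    rw [this]
    simp
  | succ j ih =>
    rw [Finset.sum_range_succ, pow_add]
    refine (card_soc_succ_le y j).trans (Nat.mul_le_mul ih (le_of_eq ?_))
    congr 1
    rw [Nat.card_eq_fintype_card, Sym.card_sym_eq_choose, hr]
    congr 1
    omega

theorem two_mul_card_le {H K : Submodule A V} (hle : H ≤ K) {u : V} (huK : u ∈ K) (huH : u ∉ H) :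
    2 * Nat.card H ≤ Nat.card K := by
  have h1 : Nat.card (↥H ⊕ ↥H) = 2 * Nat.card H := by
    rw [Nat.card_sum, two_mul]
  rw [← h1]
  refine Nat.card_le_card_of_injective
    (Sum.elim (fun h : ↥H => (⟨(h : V), hle h.2⟩ : ↥K))
      (fun h : ↥H => (⟨(h : V) + u, K.add_mem (hle h.2) huK⟩ : ↥K))) ?_
  rintro (h | h) (h' | h') hh
  · have : (h : V) = h' := congrArg (fun z : ↥K => (z : V)) hh
    rw [Subtype.ext this]
  · exfalso
    have : (h : V) = h' + u := congrArg (fun z : ↥K => (z : V)) hh
    apply huH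
    have e : u = (h : V) - h' := by rw [this]; abel
    rw [e]
    exact H.sub_mem h.2 h'.2
  · exfalso
    have : (h : V) + u = h' := congrArg (fun z : ↥K => (z : V)) hh
    apply huH
    have e : u = (h' : V) - h := by rw [← this]; abel
    rw [e]
    exact H.sub_mem h'.2 h.2
  · have : (h : V) + u = h' + u := congrArg (fun z : ↥K => (z : V)) hh
    rw [Subtype.ext (add_right_cancel this)]

/-- **(S5)** a submodule with less than `2^D` elements on which `(x)` is nilpotent is killed by `(x)^D`. -/
theorem le_soc_of_card_lt {κ : Type*} (x : κ → A) (U : Submodule A V)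
    (hN : ∃ N, U ≤ soc x N) {D : ℕ} (hD : Nat.card U < 2 ^ D) : U ≤ soc x D := by
  classical
  obtain ⟨N, hN⟩ := hN
  have key : ∀ i : ℕ, U ≤ soc x i ∨ 2 ^ i ≤ Nat.card ↥(U ⊓ soc x i) := by
    intro i
    induction i with
    | zero =>
      right
      rw [pow_zero]
      exact Nat.one_le_iff_ne_zero.2 Nat.card_pos.ne'
    | succ i ih =>
      rcases ih with h | h
      · exact Or.inl (h.trans (soc_le_succ x i))
      · by_cases hU : U ≤ soc x i
        · exact Or.inl (hU.trans (soc_le_succ x i))
        · right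
          obtain ⟨w, hwU, hwi⟩ := SetLike.not_le_iff_exists.1 hU
          have hex : ∃ n, w ∈ soc x n := ⟨N, hN hwU⟩
          set n := Nat.find hex with hn
          have hwn : w ∈ soc x n := Nat.find_spec hex
          have hin : i < n := by
            by_contra hlt
            exact hwi (soc_mono x (not_lt.1 hlt) hwn)
          obtain ⟨t, ht⟩ : ∃ t, n = t + (i + 1) := ⟨n - (i + 1), by omega⟩
          have hwn' : w ∉ soc x (t + i) := Nat.find_min hex (by omega)
          rw [mem_soc_add_iff] at hwn'
          simp only [not_forall] at hwn'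
          obtain ⟨s, hs⟩ := hwn'
          rw [ht, mem_soc_add_iff] at hwn
          have h2 := two_mul_card_le (H := U ⊓ soc x i) (K := U ⊓ soc x (i + 1))
            (inf_le_inf_left U (soc_le_succ x i)) (u := mon x s • w)
            ⟨U.smul_mem _ hwU, hwn s⟩ (fun h' => hs h'.2)
          calc 2 ^ (i + 1) = 2 * 2 ^ i := by ring
            _ ≤ 2 * Nat.card ↥(U ⊓ soc x i) := Nat.mul_le_mul_left 2 h
            _ ≤ _ := h2
  rcases key D with h | h
  · exact h
  · exfalso
    have h3 : Nat.card ↥(U ⊓ soc x D) ≤ Nat.card U :=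
      Nat.card_le_card_of_injective (fun z => (⟨(z : V), z.2.1⟩ : ↥U)) (fun z z' hz =>
        Subtype.ext (congrArg (fun t : ↥U => (t : V)) hz))
    omega

end Card

/-! ### the numerical part -/

theorem choose_mul_le (E J : ℕ) (hE : 1 ≤ E) (R : ℕ) :
    (R + E * J).choose R ≤ E ^ R * (R + J).choose R := by
  induction R with
  | zero => simp
  | succ R ih =>
    have h1 : (R + E * J + 1) * (R + E * J).choose R = (R + E * J + 1).choose (R + 1) * (R + 1) :=
      Nat.add_one_mul_choose_eq _ _
    have h2 : (R + J + 1) * (R + J).choose R = (R + J + 1).choose (R + 1) * (R + 1) :=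
      Nat.add_one_mul_choose_eq _ _
    have e1 : R + 1 + E * J = R + E * J + 1 := by ring
    have e2 : R + 1 + J = R + J + 1 := by ring
    rw [e1, e2]
    have h3 : R + E * J + 1 ≤ E * (R + J + 1) := by nlinarith
    have h4 : (R + E * J + 1).choose (R + 1) * (R + 1) ≤
        (E ^ (R + 1) * (R + J + 1).choose (R + 1)) * (R + 1) := by
      calc (R + E * J + 1).choose (R + 1) * (R + 1)
          = (R + E * J + 1) * (R + E * J).choose R := h1.symm
        _ ≤ (E * (R + J + 1)) * (E ^ R * (R + J).choose R) := Nat.mul_le_mul h3 ih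
        _ = E ^ (R + 1) * ((R + J + 1) * (R + J).choose R) := by ring
        _ = _ := by rw [h2]; ring
    exact Nat.le_of_mul_le_mul_right h4 (Nat.succ_pos R)

/-- the numerical inequality of [COUNT-LIFT]. -/
theorem count_num (d c E J R : ℕ) (hE : 1 ≤ E) (hR : 1 ≤ R)
    (h : d * (J + R).choose (R + 1) ≤ c * (R - 1 + E * J).choose R) :
    d * J ≤ c * E ^ R * (R + 1) := by
  have h1 : (R - 1 + E * J).choose R ≤ E ^ R * (R + J).choose R :=
    (Nat.choose_le_choose R (by omega)).trans (choose_mul_le E J hE R)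
  have h2 : (J + R).choose (R + 1) * (R + 1) = (J + R).choose R * J := by
    have := Nat.choose_succ_right_eq (J + R) R
    rwa [Nat.add_sub_cancel] at this
  have hpos : 0 < (J + R).choose R := Nat.choose_pos (by omega)
  have h3 : (d * J) * (J + R).choose R ≤ (c * E ^ R * (R + 1)) * (J + R).choose R := by
    calc (d * J) * (J + R).choose R = d * ((J + R).choose R * J) := by ring
      _ = (d * (J + R).choose (R + 1)) * (R + 1) := by rw [← h2]; ring
      _ ≤ (c * (R - 1 + E * J).choose R) * (R + 1) := Nat.mul_le_mul_right _ h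
      _ ≤ (c * (E ^ R * (R + J).choose R)) * (R + 1) :=
        Nat.mul_le_mul_right _ (Nat.mul_le_mul_left _ h1)
      _ = _ := by rw [add_comm R J]; ring
  exact Nat.le_of_mul_le_mul_right h3 hpos

/-- **(S6) [COUNT-LIFT]**, torsion side.  `a` = `(p, z_1, .., z_R)`, `x` = `R` generators of `PP`.
If `#V[(a)^J] ≥ p^(d * choose (J+R) (R+1))`, `(x)^E` kills `V[a]` and `#V[PP] ≤ p^c`, then `d J ≤ c E^R (R+1)`. -/
theorem count_lift [Finite V] {κ : Type*} [Fintype κ] (a : ι → A) (x : κ → A) {p d c E J R : ℕ}
    (hp : 2 ≤ p) (hE : 1 ≤ E) (hR : 1 ≤ R) (hκ : Fintype.card κ = R)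
    (hlow : p ^ (d * (J + R).choose (R + 1)) ≤ Nat.card (soc a J : Submodule A V))
    (hnil : (soc a 1 : Submodule A V) ≤ soc x E)
    (hup : Nat.card (soc x 1 : Submodule A V) ≤ p ^ c) :
    d * J ≤ c * E ^ R * (R + 1) := by
  obtain ⟨r, rfl⟩ : ∃ r, R = r + 1 := ⟨R - 1, by omega⟩
  apply count_num d c E J (r + 1) hE hR
  have h1 : Nat.card (soc a J : Submodule A V) ≤ Nat.card (soc x (E * J) : Submodule A V) :=
    Nat.card_le_card_of_injective
      (fun z => (⟨(z : V), soc_le_soc_mul hnil J z.2⟩ : ↥(soc x (E * J) : Submodule A V)))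
      (fun z z' hz => Subtype.ext
        (congrArg (fun t : ↥(soc x (E * J) : Submodule A V) => (t : V)) hz))
  have h2 := card_soc_le (V := V) x hκ (E * J)
  have h3 : p ^ (d * (J + (r + 1)).choose (r + 1 + 1)) ≤ p ^ (c * (r + E * J).choose (r + 1)) := by
    calc p ^ (d * (J + (r + 1)).choose (r + 1 + 1)) ≤ _ := hlow
      _ ≤ _ := h1
      _ ≤ _ := h2
      _ ≤ (p ^ c) ^ (r + E * J).choose (r + 1) := Nat.pow_le_pow_left hup _
      _ = _ := by rw [← pow_mul]
  have h4 := (Nat.pow_le_pow_iff_right (by omega : 1 < p)).1 h3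
  simpa using h4

end Fermat.Agent.ML.Count.Soc

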