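import Mathlib

/-!
# ML / COUNT : slicing (torsion side, cardinalities of finite modules)

`A` a commutative ring, `X` a finite `A`-module.  No duals, no freeness, no quotient rings.

* `card_le_card_ker_mul` : `φ U ⊆ U'` ⟹ `#U ≤ #(U ∩ ker φ) * #U'`.
* `card_torsionBy_pow_le` : `#U[f^n] ≤ #U[f]^n`.
* `card_iInf_torsionBy_pow_le` : `#U[z_i^(E i), i ∈ I] ≤ #U[z_i, i ∈ I]^(∏ E i)`.
* `card_le_box` , `box_ge` : **[BOX]**  a module of full size with few cogenerators has a big box `X[z_i^a]`.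
-/

set_option autoImplicit false

namespace Fermat.Agent.ML

open Submodule

variable {A : Type*} [CommRing A] {X : Type*} [AddCommGroup X] [Module A X]

theorem card_le_card_ker_mul [Finite X] (φ : X →ₗ[A] X) (U U' : Submodule A X)
    (h : ∀ x ∈ U, φ x ∈ U') :
    Nat.card U ≤ Nat.card ↥(U ⊓ LinearMap.ker φ) * Nat.card U' := by
  let ψ : U →ₗ[A] U' := (φ.domRestrict U).codRestrict U' (fun x => h x x.2)
  have h1 : Nat.card U = Nat.card (LinearMap.ker ψ) * Nat.card (U ⧸ LinearMap.ker ψ) :=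
    Submodule.card_eq_card_quotient_mul_card _
  have h2 : Nat.card (U ⧸ LinearMap.ker ψ) = Nat.card (LinearMap.range ψ) :=
    Nat.card_congr ψ.quotKerEquivRange.toEquiv
  have h3 : Nat.card (LinearMap.range ψ) ≤ Nat.card U' :=
    Nat.card_le_card_of_injective _ Subtype.val_injective
  have h5 : LinearMap.ker ψ = (U ⊓ LinearMap.ker φ).comap U.subtype := by
    ext x
    simp only [LinearMap.mem_ker, Submodule.mem_comap, Submodule.mem_inf, Submodule.subtype_apply,
      x.2, true_and]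
    constructor
    · intro hx
      exact congrArg Subtype.val hx
    · intro hx
      exact Subtype.ext hx
  have h4 : Nat.card (LinearMap.ker ψ) = Nat.card ↥(U ⊓ LinearMap.ker φ) := by
    rw [h5]
    exact Nat.card_congr (Submodule.comapSubtypeEquivOfLe inf_le_left).toEquiv
  rw [h1, h2, h4]
  exact Nat.mul_le_mul_left _ h3

theorem card_le_of_le [Finite X] {U U' : Submodule A X} (h : U ≤ U') : Nat.card U ≤ Nat.card U' :=
  Nat.card_le_card_of_injective (Submodule.inclusion h) (Submodule.inclusion_injective h)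

theorem card_pos' [Finite X] (U : Submodule A X) : 0 < Nat.card U := Nat.card_pos

/-- `#U[f^n] ≤ #U[f]^n`. -/
theorem card_torsionBy_pow_le [Finite X] (U : Submodule A X) (f : A) (n : ℕ) :
    Nat.card ↥(U ⊓ torsionBy A X (f ^ n)) ≤ Nat.card ↥(U ⊓ torsionBy A X f) ^ n := by
  induction n with
  | zero =>
    have : U ⊓ torsionBy A X (f ^ 0) = ⊥ := by
      rw [eq_bot_iff]
      rintro x ⟨-, hx⟩
      rw [SetLike.mem_coe, mem_torsionBy_iff, pow_zero, one_smul] at hx
      exact hx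
    rw [this, pow_zero]
    simp
  | succ n ih =>
    have h := card_le_card_ker_mul (LinearMap.lsmul A X f) (U ⊓ torsionBy A X (f ^ (n + 1)))
      (U ⊓ torsionBy A X (f ^ n)) (by
        rintro x ⟨hxU, hx⟩
        rw [SetLike.mem_coe, mem_torsionBy_iff] at hx
        refine ⟨U.smul_mem f hxU, ?_⟩
        rw [SetLike.mem_coe, mem_torsionBy_iff]
        show f ^ n • f • x = 0
        rw [← mul_smul, ← pow_succ]
        exact hx)
    have h2 : Nat.card ↥(U ⊓ torsionBy A X (f ^ (n + 1)) ⊓ LinearMap.ker (LinearMap.lsmul A X f)) ≤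
        Nat.card ↥(U ⊓ torsionBy A X f) := by
      refine card_le_of_le ?_
      rintro x ⟨⟨hxU, -⟩, hx⟩
      refine ⟨hxU, ?_⟩
      rw [SetLike.mem_coe, mem_torsionBy_iff]
      exact hx
    calc _ ≤ _ := h
      _ ≤ Nat.card ↥(U ⊓ torsionBy A X f) * Nat.card ↥(U ⊓ torsionBy A X f) ^ n :=
        Nat.mul_le_mul h2 ih
      _ = _ := by rw [pow_succ, mul_comm]

/-- multi-slicing. -/
theorem card_iInf_torsionBy_pow_le [Finite X] {ι : Type*} (z : ι → A) (E : ι → ℕ) (I : Finset ι) :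
    ∀ U : Submodule A X, Nat.card ↥(U ⊓ ⨅ i ∈ I, torsionBy A X (z i ^ E i)) ≤
      Nat.card ↥(U ⊓ ⨅ i ∈ I, torsionBy A X (z i)) ^ (∏ i ∈ I, E i) := by
  classical
  induction I using Finset.induction_on with
  | empty =>
    intro U
    simp
  | insert j I hj ih =>
    intro U
    rw [Finset.iInf_insert, Finset.iInf_insert, Finset.prod_insert hj]
    have e1 : U ⊓ (torsionBy A X (z j ^ E j) ⊓ ⨅ i ∈ I, torsionBy A X (z i ^ E i)) =
        (U ⊓ ⨅ i ∈ I, torsionBy A X (z i ^ E i)) ⊓ torsionBy A X (z j ^ E j) := by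
      rw [inf_assoc, inf_comm (torsionBy A X (z j ^ E j))]
    have e2 : (U ⊓ ⨅ i ∈ I, torsionBy A X (z i ^ E i)) ⊓ torsionBy A X (z j) =
        (U ⊓ torsionBy A X (z j)) ⊓ ⨅ i ∈ I, torsionBy A X (z i ^ E i) := by
      rw [inf_assoc, inf_assoc, inf_comm (torsionBy A X (z j))]
    have e3 : (U ⊓ torsionBy A X (z j)) ⊓ ⨅ i ∈ I, torsionBy A X (z i) =
        U ⊓ (torsionBy A X (z j) ⊓ ⨅ i ∈ I, torsionBy A X (z i)) := by
      rw [inf_assoc]
    rw [e1]
    calc _ ≤ _ := card_torsionBy_pow_le _ (z j) (E j)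
      _ ≤ (Nat.card ↥(U ⊓ (torsionBy A X (z j) ⊓ ⨅ i ∈ I, torsionBy A X (z i))) ^
          (∏ i ∈ I, E i)) ^ E j := by
        refine Nat.pow_le_pow_left ?_ _
        rw [e2, ← e3]
        exact ih _
      _ = _ := by rw [← pow_mul, mul_comm]

theorem box_exponent {a n P c : ℕ} (han : a ≤ n) (hP : a ^ c ≤ P) :
    a * ((n - a) * P) + a * (a * P - a ^ (c + 1)) = a * (n * P) - a ^ (c + 1 + 1) := by
  obtain ⟨n', rfl⟩ := Nat.exists_eq_add_of_le han
  obtain ⟨P', rfl⟩ := Nat.exists_eq_add_of_le hP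
  have e1 : a * (a ^ c + P') - a ^ (c + 1) = a * P' := by
    rw [mul_add, ← pow_succ', Nat.add_sub_cancel_left]
  have e2 : a * ((a + n') * (a ^ c + P')) =
      a ^ (c + 1 + 1) + (a * (n' * (a ^ c + P')) + a * (a * P')) := by
    ring
  rw [e1, e2, Nat.add_sub_cancel_left, Nat.add_sub_cancel_left]

/-- **[BOX]**, inductive form. -/
theorem card_le_box [Finite X] {ι : Type*} (p a : ℕ) (z : ι → A) (h : ι → X →ₗ[A] X) (N : ι → ℕ)
    (haN : ∀ i, a ≤ N i)
    (hpa : ∀ x : X, (p : A) ^ a • x = 0)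
    (hzh : ∀ (i : ι) (x : X), z i ^ a • h i x = 0)
    (hh : ∀ (i : ι) (x : X), (p : A) • x = 0 → h i x = 0 → z i ^ (N i - a) • x = 0)
    (hN : ∀ (i : ι) (x : X), (p : A) • x = 0 → z i ^ N i • x = 0)
    (I : Finset ι) :
    ∀ U : Submodule A X, (∀ i, ∀ x ∈ U, h i x ∈ U) →
      Nat.card U ≤ Nat.card ↥(U ⊓ ⨅ i ∈ I, torsionBy A X (z i ^ a)) *
        Nat.card ↥((U ⊓ torsionBy A X (p : A)) ⊓ ⨅ i ∈ I, torsionBy A X (z i)) ^
          (a * ∏ i ∈ I, N i - a ^ (I.card + 1)) := by
  classical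
  induction I using Finset.induction_on with
  | empty =>
    intro U _
    simp
  | insert j I hj ih =>
    intro U hU
    set D := Nat.card ↥((U ⊓ torsionBy A X (p : A)) ⊓ ⨅ i ∈ insert j I, torsionBy A X (z i))
      with hD
    set U' := U ⊓ torsionBy A X (z j ^ a) with hU'
    set P := ∏ i ∈ I, N i with hP
    have hDpos : 0 < D := Nat.card_pos
    -- step 1
    have s1 : Nat.card U ≤ Nat.card ↥(U ⊓ LinearMap.ker (h j)) * Nat.card U' :=
      card_le_card_ker_mul (h j) U U' (fun x hx => ⟨hU j x hx, by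
        rw [SetLike.mem_coe, mem_torsionBy_iff]
        exact hzh j x⟩)
    -- step 2
    have s2 : Nat.card ↥(U ⊓ LinearMap.ker (h j)) ≤ D ^ (a * ((N j - a) * P)) := by
      have a1 : U ⊓ LinearMap.ker (h j) =
          (U ⊓ LinearMap.ker (h j)) ⊓ torsionBy A X ((p : A) ^ a) := by
        refine le_antisymm (le_inf le_rfl ?_) inf_le_left
        intro x _
        rw [mem_torsionBy_iff]
        exact hpa x
      have a2 := card_torsionBy_pow_le (U ⊓ LinearMap.ker (h j)) (p : A) a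
      rw [← a1] at a2
      have a3 : (U ⊓ LinearMap.ker (h j)) ⊓ torsionBy A X (p : A) ≤
          (U ⊓ torsionBy A X (p : A)) ⊓
            ⨅ i ∈ insert j I, torsionBy A X (z i ^ (Function.update N j (N j - a)) i) := by
        rintro x ⟨⟨hxU, hxh⟩, hxp⟩
        rw [SetLike.mem_coe, mem_torsionBy_iff] at hxp
        refine ⟨⟨hxU, by rw [SetLike.mem_coe, mem_torsionBy_iff]; exact hxp⟩, ?_⟩
        rw [SetLike.mem_coe]
        simp only [Submodule.mem_iInf, mem_torsionBy_iff]
        intro i _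
        by_cases hij : i = j
        · subst hij
          rw [Function.update_self]
          exact hh i x hxp hxh
        · rw [Function.update_of_ne hij]
          exact hN i x hxp
      have a4 := card_iInf_torsionBy_pow_le z (Function.update N j (N j - a)) (insert j I)
        (U ⊓ torsionBy A X (p : A))
      have a5 : ∏ i ∈ insert j I, (Function.update N j (N j - a)) i = (N j - a) * P := by
        rw [Finset.prod_insert hj, Function.update_self]
        congr 1
        refine Finset.prod_congr rfl fun i hi => ?_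
        rw [Function.update_of_ne]
        rintro rfl
        exact hj hi
      rw [a5] at a4
      calc _ ≤ _ := a2
        _ ≤ (D ^ ((N j - a) * P)) ^ a := Nat.pow_le_pow_left ((card_le_of_le a3).trans a4) _
        _ = _ := by rw [← pow_mul, mul_comm]
    -- step 3
    have s3 := ih U' (fun i x hx => ⟨hU i x hx.1, by
      have := hx.2
      rw [SetLike.mem_coe, mem_torsionBy_iff] at this ⊢
      rw [← map_smul, this, map_zero]⟩)
    have b1 : U' ⊓ ⨅ i ∈ I, torsionBy A X (z i ^ a) =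
        U ⊓ ⨅ i ∈ insert j I, torsionBy A X (z i ^ a) := by
      rw [Finset.iInf_insert, hU', inf_assoc]
    have b2 : Nat.card ↥((U' ⊓ torsionBy A X (p : A)) ⊓ ⨅ i ∈ I, torsionBy A X (z i)) ≤ D ^ a := by
      have c1 : (U' ⊓ torsionBy A X (p : A)) ⊓ ⨅ i ∈ I, torsionBy A X (z i) =
          ((U ⊓ torsionBy A X (p : A)) ⊓ ⨅ i ∈ I, torsionBy A X (z i)) ⊓
            torsionBy A X (z j ^ a) := by
        rw [hU']
        ac_rfl
      have c2 : ((U ⊓ torsionBy A X (p : A)) ⊓ ⨅ i ∈ I, torsionBy A X (z i)) ⊓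
            torsionBy A X (z j) =
          (U ⊓ torsionBy A X (p : A)) ⊓ ⨅ i ∈ insert j I, torsionBy A X (z i) := by
        rw [Finset.iInf_insert]
        ac_rfl
      rw [c1]
      have := card_torsionBy_pow_le
        ((U ⊓ torsionBy A X (p : A)) ⊓ ⨅ i ∈ I, torsionBy A X (z i)) (z j) a
      rwa [c2] at this
    rw [b1] at s3
    have hPa : a ^ I.card ≤ P := by
      rw [hP, ← Finset.prod_const]
      exact Finset.prod_le_prod (fun _ _ => Nat.zero_le _) (fun i _ => haN i)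
    rw [Finset.prod_insert hj, Finset.card_insert_of_notMem hj, ← box_exponent (haN j) hPa]
    calc Nat.card U ≤ _ := s1
      _ ≤ D ^ (a * ((N j - a) * P)) *
          (Nat.card ↥(U ⊓ ⨅ i ∈ insert j I, torsionBy A X (z i ^ a)) *
            (D ^ a) ^ (a * P - a ^ (I.card + 1))) :=
        Nat.mul_le_mul s2 (s3.trans (Nat.mul_le_mul_left _ (Nat.pow_le_pow_left b2 _)))
      _ = _ := by
        rw [← pow_mul, pow_add]
        ring

/-- **[BOX]** : `#X[p, z] ≤ p^d`, `#X ≥ p^(d a ∏ N_i)` ⟹ `#X[z_i^a] ≥ p^(d a^(r+1))`. -/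
theorem box_ge [Finite X] {ι : Type*} [Fintype ι] (p a d : ℕ) (hp : 0 < p) (z : ι → A)
    (h : ι → X →ₗ[A] X) (N : ι → ℕ) (haN : ∀ i, a ≤ N i)
    (hpa : ∀ x : X, (p : A) ^ a • x = 0)
    (hzh : ∀ (i : ι) (x : X), z i ^ a • h i x = 0)
    (hh : ∀ (i : ι) (x : X), (p : A) • x = 0 → h i x = 0 → z i ^ (N i - a) • x = 0)
    (hN : ∀ (i : ι) (x : X), (p : A) • x = 0 → z i ^ N i • x = 0)
    (hcogen : Nat.card ↥(torsionBy A X (p : A) ⊓ ⨅ i, torsionBy A X (z i)) ≤ p ^ d)
    (hsize : p ^ (d * (a * ∏ i, N i)) ≤ Nat.card X) :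
    p ^ (d * a ^ (Fintype.card ι + 1)) ≤ Nat.card ↥(⨅ i, torsionBy A X (z i ^ a)) := by
  have key := card_le_box p a z h N haN hpa hzh hh hN Finset.univ ⊤ (fun _ _ _ => trivial)
  simp only [Finset.mem_univ, iInf_pos, top_inf_eq, Finset.card_univ] at key
  have h1 : Nat.card (⊤ : Submodule A X) = Nat.card X :=
    Nat.card_congr (Submodule.topEquiv (R := A) (M := X)).toEquiv
  rw [h1] at key
  have hPa : a ^ (Fintype.card ι + 1) ≤ a * ∏ i, N i := by
    rw [pow_succ', ← Finset.card_univ, ← Finset.prod_const]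
    exact Nat.mul_le_mul_left _ (Finset.prod_le_prod (fun _ _ => Nat.zero_le _) (fun i _ => haN i))
  obtain ⟨e, he⟩ := Nat.exists_eq_add_of_le hPa
  rw [he, Nat.add_sub_cancel_left] at key
  rw [he] at hsize
  have h2 : p ^ (d * a ^ (Fintype.card ι + 1)) * p ^ (d * e) ≤
      Nat.card ↥(⨅ i, torsionBy A X (z i ^ a)) * p ^ (d * e) := by
    calc _ = p ^ (d * (a ^ (Fintype.card ι + 1) + e)) := by rw [← pow_add, mul_add]
      _ ≤ _ := hsize
      _ ≤ _ := key
      _ ≤ _ := by
        refine Nat.mul_le_mul_left _ ?_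
        rw [pow_mul]
        exact Nat.pow_le_pow_left hcogen _
  exact Nat.le_of_mul_le_mul_right h2 (pow_pos hp _)

end Fermat.Agent.ML
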