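import Fermat.Agent.ML.Count.Full

/-!
# ML / COUNT : [BOXFREE]  (a module of full size with few cogenerators is free over the box ring)

`A` ANY commutative ring, `X` a finite `A`-module, `a : ι → A` ANY elements.

* `IsBasisMod K U e` : `e : κ → X` is a basis of the submodule `U` over `A ⧸ K`
  (`e i ∈ U`, spanning, `K U = 0`, and `∑ c i • e i = 0 → c i ∈ K`).
* `IsBasisMod.equiv` : `U ≃ₗ[A] (κ → A ⧸ K)`.
* `IsBasisMod.step` : one variable: a basis of `U[t]` mod `K' + (t)` lifted through `t ^ m` is a basis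
  of `U` mod `K'` (`t ^ (m+1) ∈ K'`).  No cardinalities, no regular sequences.
* `exists_isBasisMod_box` : induction over the variables; the lifts exist by the equality case of slicing.
-/

set_option autoImplicit false

namespace Fermat.Agent.ML

open Submodule

variable {A : Type*} [CommRing A] {X : Type*} [AddCommGroup X] [Module A X]

/-- `e` is a basis of `U` as a module over `A ⧸ K`. -/
structure IsBasisMod {κ : Type*} [Fintype κ] (K : Ideal A) (U : Submodule A X) (e : κ → X) :
    Prop where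
  mem : ∀ i, e i ∈ U
  span : ∀ x ∈ U, ∃ c : κ → A, ∑ i, c i • e i = x
  ker : ∀ c : κ → A, ∑ i, c i • e i = 0 → ∀ i, c i ∈ K
  ann : ∀ c ∈ K, ∀ x ∈ U, c • x = 0

namespace IsBasisMod

variable {κ : Type*} [Fintype κ]

theorem sum_eq_zero_iff {K : Ideal A} {U : Submodule A X} {e : κ → X} (h : IsBasisMod K U e)
    (c : κ → A) : ∑ i, c i • e i = 0 ↔ ∀ i, c i ∈ K :=
  ⟨h.ker c, fun hc => Finset.sum_eq_zero fun i _ => h.ann _ (hc i) _ (h.mem i)⟩

theorem congr {K K' : Ideal A} {U U' : Submodule A X} {e : κ → X} (h : IsBasisMod K U e)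
    (hK : K = K') (hU : U = U') : IsBasisMod K' U' e := by
  subst hK
  subst hU
  exact h

/-- The linear equivalence attached to a basis mod `K`. -/
theorem equiv {K : Ideal A} {U : Submodule A X} {e : κ → X} (h : IsBasisMod K U e) :
    Nonempty (U ≃ₗ[A] (κ → A ⧸ K)) := by
  classical
  let φ : (κ → A) →ₗ[A] U := Fintype.linearCombination A (fun i => (⟨e i, h.mem i⟩ : U))
  have hφ : ∀ c : κ → A, ((φ c : U) : X) = ∑ i, c i • e i := by
    intro c
    simp only [φ, Fintype.linearCombination_apply, Submodule.coe_sum, Submodule.coe_smul]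
  have hsurj : Function.Surjective φ := by
    rintro ⟨x, hx⟩
    obtain ⟨c, hc⟩ := h.span x hx
    exact ⟨c, Subtype.ext ((hφ c).trans hc)⟩
  have hker : LinearMap.ker φ = Submodule.pi Set.univ (fun _ : κ => (K : Submodule A A)) := by
    ext c
    rw [LinearMap.mem_ker, Submodule.mem_pi]
    constructor
    · intro hc i _
      refine h.ker c ?_ i
      rw [← hφ c, hc]
      rfl
    · intro hc
      refine Subtype.ext ?_
      rw [hφ c]
      exact (h.sum_eq_zero_iff c).2 fun i => hc i (Set.mem_univ i)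
  exact ⟨(φ.quotKerEquivOfSurjective hsurj).symm ≪≫ₗ Submodule.quotEquivOfEq _ _ hker ≪≫ₗ
    Submodule.quotientPi (fun _ : κ => (K : Submodule A A))⟩

/-- **One variable.** -/
theorem step {K K' : Ideal A} {U : Submodule A X} {t : A} {m : ℕ} {e f : κ → X}
    (he : IsBasisMod K (U ⊓ torsionBy A X t) e)
    (hK : K ≤ K' ⊔ Ideal.span {t}) (htK : t ^ (m + 1) ∈ K')
    (hann : ∀ c ∈ K', ∀ x ∈ U, c • x = 0)
    (hf : ∀ i, f i ∈ U) (hfe : ∀ i, t ^ m • f i = e i) : IsBasisMod K' U f := by
  classical
  refine ⟨hf, ?_, ?_, hann⟩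
  · -- spanning
    have key : ∀ j : ℕ, j ≤ m + 1 → ∀ x ∈ U, t ^ j • x = 0 → ∃ c : κ → A, ∑ i, c i • f i = x := by
      intro j
      induction j with
      | zero =>
        intro _ x _ hx
        rw [pow_zero, one_smul] at hx
        exact ⟨0, by simp [hx]⟩
      | succ j ih =>
        intro hj x hxU hx
        have hjm : j ≤ m := Nat.le_of_succ_le_succ hj
        have h1 : t ^ j • x ∈ U ⊓ torsionBy A X t := by
          refine ⟨U.smul_mem _ hxU, ?_⟩
          rw [SetLike.mem_coe, mem_torsionBy_iff, ← mul_smul, ← pow_succ']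
          exact hx
        obtain ⟨c, hc⟩ := he.span _ h1
        have h2 : t ^ j • (∑ i, (c i * t ^ (m - j)) • f i) = t ^ j • x := by
          rw [← hc, Finset.smul_sum]
          refine Finset.sum_congr rfl fun i _ => ?_
          rw [← hfe i, ← mul_smul, ← mul_smul]
          congr 1
          calc t ^ j * (c i * t ^ (m - j)) = c i * (t ^ j * t ^ (m - j)) := by ring
            _ = c i * t ^ m := by rw [← pow_add, Nat.add_sub_cancel' hjm]
        have h3 : x - ∑ i, (c i * t ^ (m - j)) • f i ∈ U :=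
          U.sub_mem hxU (U.sum_mem fun i _ => U.smul_mem _ (hf i))
        obtain ⟨c', hc'⟩ := ih (Nat.le_of_succ_le hj) _ h3 (by rw [smul_sub, h2, sub_self])
        refine ⟨fun i => c' i + c i * t ^ (m - j), ?_⟩
        simp only [add_smul, Finset.sum_add_distrib]
        rw [hc']
        abel
    intro x hx
    exact key (m + 1) le_rfl x hx (hann _ htK x hx)
  · -- kernel
    intro c hc
    have key : ∀ j : ℕ, j ≤ m + 1 → ∃ c' : κ → A, ∀ i, c i - t ^ j * c' i ∈ K' := by
      intro j
      induction j with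
      | zero =>
        intro _
        exact ⟨c, fun i => by simp⟩
      | succ j ih =>
        intro hj
        have hjm : j ≤ m := Nat.le_of_succ_le_succ hj
        obtain ⟨c', hc'⟩ := ih (Nat.le_of_succ_le hj)
        have h1 : ∑ i, (t ^ j * c' i) • f i = 0 := by
          rw [← hc, eq_comm, ← sub_eq_zero, ← Finset.sum_sub_distrib]
          refine Finset.sum_eq_zero fun i _ => ?_
          rw [← sub_smul]
          exact hann _ (hc' i) _ (hf i)
        have h2 : ∑ i, c' i • e i = 0 := by
          have : t ^ (m - j) • ∑ i, (t ^ j * c' i) • f i = ∑ i, c' i • e i := by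
            rw [Finset.smul_sum]
            refine Finset.sum_congr rfl fun i _ => ?_
            rw [← hfe i, ← mul_smul, ← mul_smul]
            congr 1
            calc t ^ (m - j) * (t ^ j * c' i) = c' i * (t ^ j * t ^ (m - j)) := by ring
              _ = c' i * t ^ m := by rw [← pow_add, Nat.add_sub_cancel' hjm]
          rw [← this, h1, smul_zero]
        have h3 : ∀ i, ∃ d : A, c' i - t * d ∈ K' := by
          intro i
          obtain ⟨k, hk, y, hy, hky⟩ := Submodule.mem_sup.1 (hK (he.ker c' h2 i))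
          obtain ⟨d, rfl⟩ := Ideal.mem_span_singleton'.1 hy
          refine ⟨d, ?_⟩
          rw [← hky]
          have : k + d * t - t * d = k := by ring
          rw [this]
          exact hk
        choose d hd using h3
        refine ⟨d, fun i => ?_⟩
        have : c i - t ^ (j + 1) * d i = (c i - t ^ j * c' i) + t ^ j * (c' i - t * d i) := by ring
        rw [this]
        exact K'.add_mem (hc' i) (K'.mul_mem_left _ (hd i))
    obtain ⟨c', hc'⟩ := key (m + 1) le_rfl
    intro i
    have : c i = (c i - t ^ (m + 1) * c' i) + t ^ (m + 1) * c' i := by ring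
    rw [this]
    exact K'.add_mem (hc' i) (K'.mul_mem_right _ htK)

end IsBasisMod

/-- **[BOXFREE]**, inductive form.  `n = J + 1` is the size of the box. -/
theorem exists_isBasisMod_box [Finite X] {ι κ : Type*} [Fintype κ] (a : ι → A) (J : ℕ)
    (I : Finset ι) :
    ∀ (U : Submodule A X) (𝔟 : Ideal A) (e : κ → X), (∀ c ∈ 𝔟, ∀ x ∈ U, c • x = 0) →
      IsBasisMod (𝔟 ⊔ Ideal.span (a '' (I : Set ι))) (U ⊓ ⨅ i ∈ I, torsionBy A X (a i)) e →
      Nat.card ↥(U ⊓ ⨅ i ∈ I, torsionBy A X (a i)) ^ ((J + 1) ^ I.card) ≤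
        Nat.card ↥(U ⊓ ⨅ i ∈ I, torsionBy A X (a i ^ (J + 1))) →
      ∃ f : κ → X,
        IsBasisMod (𝔟 ⊔ Ideal.span ((fun i => a i ^ (J + 1)) '' (I : Set ι)))
          (U ⊓ ⨅ i ∈ I, torsionBy A X (a i ^ (J + 1))) f ∧
        ∀ k, (∏ i ∈ I, a i ^ J) • f k = e k := by
  classical
  induction I using Finset.induction_on with
  | empty =>
    intro U 𝔟 e _ he _
    refine ⟨e, ?_, fun k => by simp⟩
    simpa using he
  | insert k I hk ih =>
    intro U 𝔟 e hb he hcard
    set n := J + 1 with hn
    set U₁ : Submodule A X := U ⊓ torsionBy A X (a k) with hU₁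
    set 𝔟₁ : Ideal A := 𝔟 ⊔ Ideal.span {a k} with h𝔟₁
    set V : Submodule A X := U ⊓ ⨅ i ∈ I, torsionBy A X (a i ^ n) with hV
    have e1 : U ⊓ ⨅ i ∈ insert k I, torsionBy A X (a i) = U₁ ⊓ ⨅ i ∈ I, torsionBy A X (a i) := by
      rw [Finset.iInf_insert, hU₁, inf_assoc]
    have e2 : 𝔟 ⊔ Ideal.span (a '' ((insert k I : Finset ι) : Set ι)) =
        𝔟₁ ⊔ Ideal.span (a '' (I : Set ι)) := by
      rw [Finset.coe_insert, Set.image_insert_eq, Ideal.span_insert, h𝔟₁, sup_assoc]
    have e3 : U ⊓ ⨅ i ∈ insert k I, torsionBy A X (a i ^ n) = V ⊓ torsionBy A X (a k ^ n) := by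
      rw [Finset.iInf_insert, hV, inf_assoc, inf_comm (torsionBy A X (a k ^ n))]
    have e4 : V ⊓ torsionBy A X (a k) = U₁ ⊓ ⨅ i ∈ I, torsionBy A X (a i ^ n) := by
      rw [hV, hU₁, inf_assoc, inf_assoc, inf_comm (torsionBy A X (a k))]
    have e5 : (V ⊓ torsionBy A X (a k ^ n)) ⊓ torsionBy A X (a k) = V ⊓ torsionBy A X (a k) := by
      rw [inf_assoc]
      congr 1
      refine inf_eq_right.2 ?_
      intro x hx
      rw [mem_torsionBy_iff] at hx ⊢
      rw [hn, pow_succ, mul_smul, hx, smul_zero]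
    rw [e1, e3, Finset.card_insert_of_notMem hk] at hcard
    rw [e3]
    set s := Nat.card ↥(U₁ ⊓ ⨅ i ∈ I, torsionBy A X (a i)) with hs
    have c1 : Nat.card ↥(V ⊓ torsionBy A X (a k ^ n)) ≤ Nat.card ↥(V ⊓ torsionBy A X (a k)) ^ n :=
      card_torsionBy_pow_le V (a k) n
    have c2 : Nat.card ↥(V ⊓ torsionBy A X (a k)) ≤ s ^ (n ^ I.card) := by
      have := card_iInf_torsionBy_pow_le a (fun _ => n) I U₁
      rw [Finset.prod_const] at this
      rw [e4]
      exact this
    have hpow : s ^ (n ^ (I.card + 1)) = (s ^ (n ^ I.card)) ^ n := by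
      rw [← pow_mul, pow_succ]
    have c3 : s ^ (n ^ I.card) ≤ Nat.card ↥(U₁ ⊓ ⨅ i ∈ I, torsionBy A X (a i ^ n)) := by
      rw [← e4]
      have hn0 : n ≠ 0 := Nat.succ_ne_zero J
      refine (Nat.pow_le_pow_iff_left hn0).1 ?_
      rw [← hpow]
      exact hcard.trans c1
    have c4 : Nat.card ↥((V ⊓ torsionBy A X (a k ^ n)) ⊓ torsionBy A X (a k)) ^ (J + 1) ≤
        Nat.card ↥(V ⊓ torsionBy A X (a k ^ n)) := by
      rw [e5, ← hn]
      refine le_trans (Nat.pow_le_pow_left c2 n) ?_
      rw [← hpow]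
      exact hcard
    have hb₁ : ∀ c ∈ 𝔟₁, ∀ x ∈ U₁, c • x = 0 := by
      intro c hc x hx
      obtain ⟨b, hb', y, hy, rfl⟩ := Submodule.mem_sup.1 hc
      obtain ⟨d, rfl⟩ := Ideal.mem_span_singleton'.1 hy
      have hx2 : a k • x = 0 := (mem_torsionBy_iff _ _).1 hx.2
      rw [add_smul, hb b hb' x hx.1, mul_smul, hx2, smul_zero, add_zero]
    obtain ⟨f', hf', hf'e⟩ := ih U₁ 𝔟₁ e hb₁ (he.congr e2 e1) c3
    have hlift : ∀ i, ∃ y ∈ V ⊓ torsionBy A X (a k ^ n), a k ^ J • y = f' i := by
      intro i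
      have hm : f' i ∈ V ⊓ torsionBy A X (a k) := by
        rw [e4]
        exact hf'.mem i
      have hm' : f' i ∈ (V ⊓ torsionBy A X (a k ^ n)) ⊓ torsionBy A X (a k) := by
        rw [e5]
        exact hm
      exact full_of_card (a k) J (V ⊓ torsionBy A X (a k ^ n))
        (fun x hx => (mem_torsionBy_iff _ _).1 hx.2) c4 (f' i) hm'.1
        ((mem_torsionBy_iff _ _).1 hm.2)
    choose f hfm hff' using hlift
    refine ⟨f, ?_, ?_⟩
    · refine IsBasisMod.step (K := 𝔟₁ ⊔ Ideal.span ((fun i => a i ^ n) '' (I : Set ι)))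
        (t := a k) (m := J) (e := f') (hf'.congr rfl (by rw [e5, e4])) ?_ ?_ ?_ hfm hff'
      · rw [Finset.coe_insert, Set.image_insert_eq, Ideal.span_insert, h𝔟₁]
        exact sup_le (sup_le (le_sup_of_le_left le_sup_left) le_sup_right)
          (le_sup_of_le_left (le_sup_of_le_right le_sup_right))
      · refine Ideal.mem_sup_right (Ideal.subset_span ?_)
        exact ⟨k, by simp, rfl⟩
      · intro c hc x hx
        have hle : 𝔟 ⊔ Ideal.span ((fun i => a i ^ n) '' ((insert k I : Finset ι) : Set ι)) ≤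
            (V ⊓ torsionBy A X (a k ^ n)).annihilator := by
          refine sup_le ?_ (Ideal.span_le.2 ?_)
          · intro b hb'
            rw [Submodule.mem_annihilator]
            intro y hy
            exact hb b hb' y hy.1.1
          · rintro _ ⟨i, hi, rfl⟩
            rw [SetLike.mem_coe, Submodule.mem_annihilator]
            intro y hy
            rw [Finset.mem_coe, Finset.mem_insert] at hi
            rcases hi with rfl | hi
            · exact (mem_torsionBy_iff _ _).1 hy.2
            · have := hy.1.2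
              rw [SetLike.mem_coe, Submodule.mem_iInf] at this
              have := this i
              rw [Submodule.mem_iInf] at this
              exact (mem_torsionBy_iff _ _).1 (this hi)
        exact Submodule.mem_annihilator.1 (hle hc) x hx
    · intro j
      rw [Finset.prod_insert hk, mul_comm, mul_smul, hff', hf'e]

end Fermat.Agent.ML
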