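import Fermat.Agent.ML.Count.BoxFree

/-!
# ML / COUNT : [BOXFREE], final forms

* `exists_isBasisMod_socle` : a finite module killed by an ideal `𝔪` with `A ⧸ 𝔪 = 𝔽_p` has a basis mod `𝔪`.
* `boxfree_of_card` : `A` any commutative ring, `a : ι → A` with `A ⧸ (a) = 𝔽_p`,
  `#X[a] ≤ p ^ D`, `p ^ (D * n ^ #ι) ≤ #X[a_i ^ n]` ⟹ `X[a_i ^ n]` is free of rank `D` over `A ⧸ (a_i ^ n)`.
* `boxfree` : the same with `p` separated from `z : ι → A` (hypotheses = output of `box_ge` / `box_of_tau`).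
* `boxfree_mvPolynomial` : `A = MvPolynomial ι ℤ`, `z = X` : **[BOXFREE]** in the shape asked by RAISE.
-/

set_option autoImplicit false

namespace Fermat.Agent.ML

open Submodule

variable {A : Type*} [CommRing A] {X : Type*} [AddCommGroup X] [Module A X]

theorem exists_zbasis_aux (p : ℕ) [Fact p.Prime] {G : Type*} [AddCommGroup G]
    [Module (ZMod p) G] [Finite G] :
    ∃ D : ℕ, Nat.card G = p ^ D ∧ ∃ b : Fin D → G,
      (∀ x, ∃ c : Fin D → ℤ, ∑ i, c i • b i = x) ∧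
      ∀ c : Fin D → ℤ, ∑ i, c i • b i = 0 → ∀ i, (p : ℤ) ∣ c i := by
  classical
  have inst2 : Module.Finite (ZMod p) G := Module.Finite.of_finite
  refine ⟨Module.finrank (ZMod p) G, ?_, ?_⟩
  · rw [Module.natCard_eq_pow_finrank (K := ZMod p) (V := G), Nat.card_zmod]
  let b : Module.Basis (Fin (Module.finrank (ZMod p) G)) (ZMod p) G :=
    Module.finBasisOfFinrankEq (ZMod p) G rfl
  refine ⟨fun i => b i, ?_, ?_⟩
  · intro x
    refine ⟨fun i => ((b.repr x i).val : ℤ), ?_⟩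
    conv_rhs => rw [← b.sum_repr x]
    refine Finset.sum_congr rfl fun i _ => ?_
    rw [← Int.cast_smul_eq_zsmul (ZMod p)]
    congr 1
    simp
  · intro c hc i
    have h1 : ∑ i, ((c i : ℤ) : ZMod p) • b i = 0 := by
      rw [← hc]
      refine Finset.sum_congr rfl fun i _ => ?_
      rw [Int.cast_smul_eq_zsmul]
    have h2 := Fintype.linearIndependent_iff.1 b.linearIndependent _ h1
    exact (ZMod.intCast_zmod_eq_zero_iff_dvd _ _).1 (h2 i)

/-- A finite elementary abelian `p`-group has a `ℤ`-basis mod `p`. -/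
theorem exists_zbasis_of_elementary (p : ℕ) [Fact p.Prime] {G : Type*} [AddCommGroup G] [Finite G]
    (h : ∀ x : G, p • x = 0) :
    ∃ D : ℕ, Nat.card G = p ^ D ∧ ∃ b : Fin D → G,
      (∀ x, ∃ c : Fin D → ℤ, ∑ i, c i • b i = x) ∧
      ∀ c : Fin D → ℤ, ∑ i, c i • b i = 0 → ∀ i, (p : ℤ) ∣ c i :=
  @exists_zbasis_aux p _ G _ (AddCommGroup.zmodModule h) _

/-- A finite module killed by `𝔪`, `A ⧸ 𝔪 = 𝔽_p`, has a basis mod `𝔪`. -/
theorem exists_isBasisMod_socle (p : ℕ) [Fact p.Prime] [Finite X] (𝔪 : Ideal A)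
    (U : Submodule A X) (hp : (p : A) ∈ 𝔪) (hres : ∀ c : A, ∃ n : ℤ, c - (n : A) ∈ 𝔪)
    (hann : ∀ c ∈ 𝔪, ∀ x ∈ U, c • x = 0) :
    ∃ D : ℕ, Nat.card U = p ^ D ∧ ∃ e : Fin D → X, IsBasisMod 𝔪 U e := by
  classical
  have hpU : ∀ x : U, p • x = 0 := by
    intro x
    refine Subtype.ext ?_
    have h1 : ((p • x : U) : X) = p • (x : X) := rfl
    rw [h1, ← Nat.cast_smul_eq_nsmul A]
    exact hann _ hp _ x.2
  obtain ⟨D, hD, b, hspan, hker⟩ := exists_zbasis_of_elementary p hpU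
  have hsum : ∀ c : Fin D → ℤ, ((∑ i, c i • b i : U) : X) = ∑ i, ((c i : ℤ) : A) • (b i : X) := by
    intro c
    rw [Submodule.coe_sum]
    refine Finset.sum_congr rfl fun i _ => ?_
    rw [Int.cast_smul_eq_zsmul]
    rfl
  refine ⟨D, hD, fun i => (b i : X), fun i => (b i).2, ?_, ?_, hann⟩
  · intro x hx
    obtain ⟨c, hc⟩ := hspan ⟨x, hx⟩
    refine ⟨fun i => ((c i : ℤ) : A), ?_⟩
    rw [← hsum c, hc]
  · intro c hc
    choose n hn using hres
    have h1 : ∑ i, n (c i) • b i = 0 := by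
      refine Subtype.ext ?_
      rw [hsum, Submodule.coe_zero, ← hc]
      refine Finset.sum_congr rfl fun i _ => ?_
      have := hann _ (hn (c i)) _ (b i).2
      rw [sub_smul, sub_eq_zero] at this
      exact this.symm
    intro i
    obtain ⟨k, hk⟩ := hker _ h1 i
    have h4 : ((n (c i) : ℤ) : A) ∈ 𝔪 := by
      rw [hk]
      push_cast
      exact 𝔪.mul_mem_right _ hp
    have : c i = (c i - ((n (c i) : ℤ) : A)) + ((n (c i) : ℤ) : A) := by ring
    rw [this]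
    exact 𝔪.add_mem (hn (c i)) h4

/-- **[BOXFREE]**, all variables on the same footing. -/
theorem boxfree_of_card (p : ℕ) [Fact p.Prime] [Finite X] {ι : Type*} [Fintype ι] (a : ι → A)
    (J D : ℕ) (hp : (p : A) ∈ Ideal.span (Set.range a))
    (hres : ∀ c : A, ∃ n : ℤ, c - (n : A) ∈ Ideal.span (Set.range a))
    (hcogen : Nat.card ↥(⨅ i, torsionBy A X (a i)) ≤ p ^ D)
    (hbox : p ^ (D * (J + 1) ^ Fintype.card ι) ≤
      Nat.card ↥(⨅ i, torsionBy A X (a i ^ (J + 1)))) :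
    ∃ f : Fin D → X,
      IsBasisMod (Ideal.span (Set.range fun i => a i ^ (J + 1)))
        (⨅ i, torsionBy A X (a i ^ (J + 1))) f ∧
      IsBasisMod (Ideal.span (Set.range a)) (⨅ i, torsionBy A X (a i))
        (fun k => (∏ i, a i ^ J) • f k) := by
  classical
  have hp1 : 1 < p := (Fact.out : p.Prime).one_lt
  have hann : ∀ c ∈ Ideal.span (Set.range a), ∀ x ∈ (⨅ i, torsionBy A X (a i)), c • x = 0 := by
    intro c hc x hx
    have hle : Ideal.span (Set.range a) ≤ (⨅ i, torsionBy A X (a i)).annihilator := by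
      refine Ideal.span_le.2 ?_
      rintro _ ⟨i, rfl⟩
      rw [SetLike.mem_coe, Submodule.mem_annihilator]
      intro y hy
      rw [Submodule.mem_iInf] at hy
      exact (mem_torsionBy_iff _ _).1 (hy i)
    exact Submodule.mem_annihilator.1 (hle hc) x hx
  obtain ⟨D', hD', e, he⟩ := exists_isBasisMod_socle p _ _ hp hres hann
  have hslice := card_iInf_torsionBy_pow_le (X := X) a (fun _ => J + 1) Finset.univ ⊤
  simp only [Finset.mem_univ, iInf_pos, top_inf_eq, Finset.prod_const, Finset.card_univ] at hslice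
  have hDD' : D' = D := by
    refine le_antisymm ?_ ?_
    · rw [hD'] at hcogen
      exact (Nat.pow_le_pow_iff_right hp1).1 hcogen
    · have h1 := hbox.trans hslice
      rw [hD', ← pow_mul] at h1
      have h2 := (Nat.pow_le_pow_iff_right hp1).1 h1
      exact Nat.le_of_mul_le_mul_right h2 (pow_pos (Nat.succ_pos J) _)
  subst hDD'
  have key := exists_isBasisMod_box (X := X) a J Finset.univ ⊤ ⊥ e
    (fun c hc x _ => by rw [(Submodule.mem_bot A).1 hc, zero_smul])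
    (he.congr (by simp) (by simp))
    (by
      simp only [Finset.mem_univ, iInf_pos, top_inf_eq, Finset.card_univ]
      rw [hD', ← pow_mul]
      exact hbox)
  obtain ⟨f, hf, hfe⟩ := key
  refine ⟨f, hf.congr (by simp) (by simp), ?_⟩
  have : (fun k => (∏ i, a i ^ J) • f k) = e := funext hfe
  rw [this]
  exact he

/-- The box ideal `(p ^ n, z_i ^ n)`. -/
def boxIdeal {ι : Type*} (p : ℕ) (z : ι → A) (n : ℕ) : Ideal A :=
  Ideal.span {(p : A) ^ n} ⊔ Ideal.span (Set.range fun i => z i ^ n)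

theorem span_range_option_elim {ι : Type*} (x : A) (z : ι → A) :
    Ideal.span (Set.range fun o : Option ι => o.elim x z) =
      Ideal.span {x} ⊔ Ideal.span (Set.range z) := by
  rw [← Ideal.span_union]
  congr 1
  ext y
  constructor
  · rintro ⟨o, rfl⟩
    cases o with
    | none => exact Or.inl rfl
    | some i => exact Or.inr ⟨i, rfl⟩
  · rintro (h | ⟨i, rfl⟩)
    · exact ⟨none, h.symm⟩
    · exact ⟨some i, rfl⟩

/-- **[BOXFREE]** : hypotheses in the shape of the output of `box_ge` / `box_of_tau`: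
`X` a finite `A`-module killed by `p ^ n`, `#X[p, z] ≤ p ^ D`, `p ^ (D n ^ (r + 1)) ≤ #X[z_i ^ n]`,
`A ⧸ (p, z) = 𝔽_p`.  Then `X[z_i ^ n]` is free of rank `D` over `A ⧸ (p ^ n, z_i ^ n)`, and the socle
is `p ^ (n - 1) ∏ z_i ^ (n - 1)` times the box. -/
theorem boxfree_basis (p : ℕ) [Fact p.Prime] [Finite X] {ι : Type*} [Fintype ι] (z : ι → A)
    (J D : ℕ) (hres : ∀ c : A, ∃ n : ℤ, c - (n : A) ∈ boxIdeal p z 1)
    (hpa : ∀ x : X, (p : A) ^ (J + 1) • x = 0)
    (hcogen : Nat.card ↥(torsionBy A X (p : A) ⊓ ⨅ i, torsionBy A X (z i)) ≤ p ^ D)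
    (hbox : p ^ (D * (J + 1) ^ (Fintype.card ι + 1)) ≤
      Nat.card ↥(⨅ i, torsionBy A X (z i ^ (J + 1)))) :
    ∃ f : Fin D → X,
      IsBasisMod (boxIdeal p z (J + 1)) (⨅ i, torsionBy A X (z i ^ (J + 1))) f ∧
      IsBasisMod (boxIdeal p z 1) (torsionBy A X (p : A) ⊓ ⨅ i, torsionBy A X (z i))
        (fun k => ((p : A) ^ J * ∏ i, z i ^ J) • f k) := by
  classical
  let a : Option ι → A := fun o => o.elim (p : A) z
  have hI1 : Ideal.span (Set.range a) = boxIdeal p z 1 := by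
    rw [span_range_option_elim, boxIdeal]
    simp only [pow_one]
  have hIn : Ideal.span (Set.range fun o => a o ^ (J + 1)) = boxIdeal p z (J + 1) := by
    have : (fun o => a o ^ (J + 1)) =
        fun o : Option ι => o.elim ((p : A) ^ (J + 1)) (fun i => z i ^ (J + 1)) := by
      funext o
      cases o <;> rfl
    rw [this, span_range_option_elim, boxIdeal]
  have hT1 : (⨅ o, torsionBy A X (a o)) = torsionBy A X (p : A) ⊓ ⨅ i, torsionBy A X (z i) := by
    rw [iInf_option]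
    rfl
  have hTn : (⨅ o, torsionBy A X (a o ^ (J + 1))) = ⨅ i, torsionBy A X (z i ^ (J + 1)) := by
    rw [iInf_option]
    refine inf_eq_right.2 ?_
    intro x _
    rw [mem_torsionBy_iff]
    exact hpa x
  have hpm : (p : A) ∈ Ideal.span (Set.range a) := Ideal.subset_span ⟨none, rfl⟩
  obtain ⟨f, hf, hf'⟩ := boxfree_of_card (X := X) p a J D hpm (by rw [hI1]; exact hres)
    (by rw [hT1]; exact hcogen) (by rw [hTn, Fintype.card_option]; exact hbox)
  refine ⟨f, hf.congr hIn hTn, ?_⟩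
  have := hf'.congr hI1 hT1
  rw [Fintype.prod_option] at this
  exact this

theorem boxfree (p : ℕ) [Fact p.Prime] [Finite X] {ι : Type*} [Fintype ι] (z : ι → A)
    (n D : ℕ) (hn : 1 ≤ n) (hres : ∀ c : A, ∃ m : ℤ, c - (m : A) ∈ boxIdeal p z 1)
    (hpa : ∀ x : X, (p : A) ^ n • x = 0)
    (hcogen : Nat.card ↥(torsionBy A X (p : A) ⊓ ⨅ i, torsionBy A X (z i)) ≤ p ^ D)
    (hbox : p ^ (D * n ^ (Fintype.card ι + 1)) ≤ Nat.card ↥(⨅ i, torsionBy A X (z i ^ n))) :
    Nonempty (↥(⨅ i, torsionBy A X (z i ^ n)) ≃ₗ[A] (Fin D → A ⧸ boxIdeal p z n)) := by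
  obtain ⟨J, rfl⟩ : ∃ J, n = J + 1 := ⟨n - 1, by omega⟩
  obtain ⟨f, hf, -⟩ := boxfree_basis p z J D hres hpa hcogen hbox
  exact hf.equiv

/-- `MvPolynomial ι ℤ ⧸ (p, X_i) = 𝔽_p`. -/
theorem mvPolynomial_res {ι : Type*} (p : ℕ) (c : MvPolynomial ι ℤ) :
    ∃ m : ℤ, c - (m : MvPolynomial ι ℤ) ∈
      boxIdeal p (MvPolynomial.X : ι → MvPolynomial ι ℤ) 1 := by
  induction c using MvPolynomial.induction_on with
  | C a => exact ⟨a, by simp⟩
  | add f g hf hg =>
    obtain ⟨m, hm⟩ := hf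
    obtain ⟨m', hm'⟩ := hg
    refine ⟨m + m', ?_⟩
    have : f + g - ((m + m' : ℤ) : MvPolynomial ι ℤ) = (f - m) + (g - m') := by
      push_cast
      ring
    rw [this]
    exact Ideal.add_mem _ hm hm'
  | mul_X f i _ =>
    refine ⟨0, ?_⟩
    rw [Int.cast_zero, sub_zero]
    refine Ideal.mul_mem_left _ _ (Ideal.mem_sup_right (Ideal.subset_span ⟨i, ?_⟩))
    simp

/-- **[BOXFREE]** for `S = ℤ[z_i]` (shape asked by RAISE, #2540 (4)). -/
theorem boxfree_mvPolynomial (p : ℕ) [Fact p.Prime] {ι : Type*} [Fintype ι]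
    {Y : Type*} [AddCommGroup Y] [Module (MvPolynomial ι ℤ) Y] [Finite Y]
    (n D : ℕ) (hn : 1 ≤ n)
    (hpa : ∀ x : Y, (p : MvPolynomial ι ℤ) ^ n • x = 0)
    (hcogen : Nat.card ↥(torsionBy (MvPolynomial ι ℤ) Y (p : MvPolynomial ι ℤ) ⊓
      ⨅ i, torsionBy (MvPolynomial ι ℤ) Y (MvPolynomial.X i)) ≤ p ^ D)
    (hbox : p ^ (D * n ^ (Fintype.card ι + 1)) ≤
      Nat.card ↥(⨅ i, torsionBy (MvPolynomial ι ℤ) Y ((MvPolynomial.X i) ^ n))) :
    Nonempty (↥(⨅ i, torsionBy (MvPolynomial ι ℤ) Y ((MvPolynomial.X i) ^ n)) ≃ₗ[MvPolynomial ι ℤ]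
      (Fin D → MvPolynomial ι ℤ ⧸ boxIdeal p (MvPolynomial.X : ι → MvPolynomial ι ℤ) n)) :=
  boxfree p MvPolynomial.X n D hn (mvPolynomial_res p) hpa hcogen hbox

end Fermat.Agent.ML
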