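import Fermat.Agent.ML.Count.Slice

/-!
# ML / COUNT : the equality case of slicing

`A` a commutative ring, `X` a finite `A`-module, `U ≤ X`, `f ∈ A` with `f ^ n = 0` on `U`.
Slicing says `#U ≤ #U[f] ^ n`.  If conversely `#U[f] ^ n ≤ #U` then all Jordan blocks of `f` on `U`
are full: `U[f] = f ^ (n - 1) U`.

* `full_of_card` : `#U[f] ^ (n + 1) ≤ #U`, `f ^ (n + 1) U = 0`, `x ∈ U[f]` ⟹ `x ∈ f ^ n U`.
-/

set_option autoImplicit false

namespace Fermat.Agent.ML

open Submodule

variable {A : Type*} [CommRing A] {X : Type*} [AddCommGroup X] [Module A X]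

theorem eq_of_le_of_card_le [Finite X] {U U' : Submodule A X} (h : U ≤ U')
    (hc : Nat.card U' ≤ Nat.card U) : U = U' := by
  have hinj := Submodule.inclusion_injective h
  have hbij : Function.Bijective (Submodule.inclusion h) :=
    (Nat.bijective_iff_injective_and_card _).2 ⟨hinj, le_antisymm (card_le_of_le h) hc⟩
  refine le_antisymm h ?_
  intro x hx
  obtain ⟨y, hy⟩ := hbij.2 ⟨x, hx⟩
  have : (y : X) = x := congrArg Subtype.val hy
  rw [← this]
  exact y.2

/-- **Equality case of slicing.** -/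
theorem full_of_card [Finite X] (f : A) (n : ℕ) :
    ∀ U : Submodule A X, (∀ x ∈ U, f ^ (n + 1) • x = 0) →
      Nat.card ↥(U ⊓ torsionBy A X f) ^ (n + 1) ≤ Nat.card U →
      ∀ x ∈ U, f • x = 0 → ∃ y ∈ U, f ^ n • y = x := by
  induction n with
  | zero =>
    intro U _ _ x hx _
    exact ⟨x, hx, by rw [pow_zero, one_smul]⟩
  | succ n ih =>
    intro U hU hcard x hx hfx
    set U' : Submodule A X := U.map (LinearMap.lsmul A X f) with hU'
    have hU'U : U' ≤ U := by
      rintro _ ⟨y, hy, rfl⟩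
      exact U.smul_mem f hy
    have hs : 0 < Nat.card ↥(U ⊓ torsionBy A X f) := card_pos' _
    -- `#U ≤ s * #U'`
    have h1 : Nat.card U ≤ Nat.card ↥(U ⊓ torsionBy A X f) * Nat.card U' := by
      have h := card_le_card_ker_mul (LinearMap.lsmul A X f) U U'
        (fun y hy => Submodule.mem_map_of_mem hy)
      have e : U ⊓ LinearMap.ker (LinearMap.lsmul A X f) = U ⊓ torsionBy A X f := by
        ext y
        simp only [Submodule.mem_inf, LinearMap.mem_ker, mem_torsionBy_iff, LinearMap.lsmul_apply]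
      rwa [e] at h
    have h2 : Nat.card ↥(U ⊓ torsionBy A X f) ^ (n + 1) ≤ Nat.card U' := by
      have : Nat.card ↥(U ⊓ torsionBy A X f) * Nat.card ↥(U ⊓ torsionBy A X f) ^ (n + 1) ≤
          Nat.card ↥(U ⊓ torsionBy A X f) * Nat.card U' := by
        rw [← pow_succ']
        exact hcard.trans h1
      exact Nat.le_of_mul_le_mul_left this hs
    have hU'0 : ∀ y ∈ U', f ^ (n + 1) • y = 0 := by
      rintro _ ⟨y, hy, rfl⟩
      show f ^ (n + 1) • f • y = 0
      rw [← mul_smul, ← pow_succ]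
      exact hU y hy
    -- `#U' ≤ #U'[f]^(n+1)`
    have h3 : Nat.card U' ≤ Nat.card ↥(U' ⊓ torsionBy A X f) ^ (n + 1) := by
      have h := card_torsionBy_pow_le U' f (n + 1)
      have e : U' ⊓ torsionBy A X (f ^ (n + 1)) = U' := by
        refine inf_eq_left.2 ?_
        intro y hy
        rw [mem_torsionBy_iff]
        exact hU'0 y hy
      rwa [e] at h
    have h4 : Nat.card ↥(U ⊓ torsionBy A X f) ≤ Nat.card ↥(U' ⊓ torsionBy A X f) :=
      (Nat.pow_le_pow_iff_left (Nat.succ_ne_zero n)).1 (h2.trans h3)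
    have h5 : U' ⊓ torsionBy A X f = U ⊓ torsionBy A X f :=
      eq_of_le_of_card_le (inf_le_inf_right _ hU'U) h4
    have hx' : x ∈ U' := by
      have : x ∈ U ⊓ torsionBy A X f := ⟨hx, (mem_torsionBy_iff _ _).2 hfx⟩
      rw [← h5] at this
      exact this.1
    have h6 : Nat.card ↥(U' ⊓ torsionBy A X f) ^ (n + 1) ≤ Nat.card U' := by
      rw [h5]
      exact h2
    obtain ⟨y, hy, hyx⟩ := ih U' hU'0 h6 x hx' hfx
    obtain ⟨w, hw, rfl⟩ := hy
    refine ⟨w, hw, ?_⟩
    rw [pow_succ, mul_smul]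
    exact hyx

end Fermat.Agent.ML
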