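import Fermat.Agent.ML.Count.Slice

/-!
# ML / COUNT / Shrink : multiplying a big module in a box by `z₁ ⋯ z_t` keeps it big

`A` a commutative ring, `X` a finite `A`-module, `G ≤ X` killed by `p^a` and by the `z_i^a`, with `#G[p, z] ≤ p^d`.

* `card_le_card_torsionBy_mul_map` : `#G ≤ #G[r] * #(r G)`;
* `card_torsionBy_le_of_box` : `#G[z_j] ≤ p^(d a^t)`   (`t = #ι`; one variable less than the box);
* `card_le_card_prod_smul` : `#G ≤ #((∏ z_i) G) * p^(t d a^t)`.
-/

set_option autoImplicit false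

namespace Fermat.Agent.ML

open Submodule

variable {A : Type*} [CommRing A] {X : Type*} [AddCommGroup X] [Module A X]

/-- `#G ≤ #G[r] * #(r G)`. -/
theorem card_le_card_torsionBy_mul_map [Finite X] (G : Submodule A X) (r : A) :
    Nat.card G ≤ Nat.card ↥(G ⊓ torsionBy A X r) *
      Nat.card ↥(G.map (LinearMap.lsmul A X r)) := by
  have h := card_le_card_ker_mul (LinearMap.lsmul A X r) G (G.map (LinearMap.lsmul A X r))
    (fun x hx => Submodule.mem_map_of_mem hx)
  have e : G ⊓ LinearMap.ker (LinearMap.lsmul A X r) = G ⊓ torsionBy A X r := by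
    ext x
    simp only [Submodule.mem_inf, LinearMap.mem_ker, mem_torsionBy_iff, LinearMap.lsmul_apply]
  rwa [e] at h

theorem map_lsmul_le (G : Submodule A X) (r : A) : G.map (LinearMap.lsmul A X r) ≤ G := by
  rintro _ ⟨x, hx, rfl⟩
  exact G.smul_mem r hx

/-- `#G[z_j] ≤ p^(d a^t)`. -/
theorem card_torsionBy_le_of_box [Finite X] {ι : Type*} [Fintype ι] [DecidableEq ι] (p a d : ℕ)
    (z : ι → A) (G : Submodule A X) (hpa : ∀ x ∈ G, (p : A) ^ a • x = 0)
    (hza : ∀ i, ∀ x ∈ G, z i ^ a • x = 0)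
    (hsoc : Nat.card ↥((G ⊓ torsionBy A X (p : A)) ⊓ ⨅ i, torsionBy A X (z i)) ≤ p ^ d) (j : ι) :
    Nat.card ↥(G ⊓ torsionBy A X (z j)) ≤ p ^ (d * a ^ Fintype.card ι) := by
  set U := G ⊓ torsionBy A X (z j) with hU
  have h1 : U ⊓ torsionBy A X ((p : A) ^ a) = U := by
    refine inf_eq_left.2 fun x hx => ?_
    rw [mem_torsionBy_iff]
    exact hpa x hx.1
  have h2 := card_torsionBy_pow_le U (p : A) a
  rw [h1] at h2
  set U' := U ⊓ torsionBy A X (p : A) with hU'
  have h3 : U' ⊓ ⨅ i ∈ Finset.univ.erase j, torsionBy A X (z i ^ a) = U' := by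
    refine inf_eq_left.2 fun x hx => ?_
    simp only [Submodule.mem_iInf, mem_torsionBy_iff]
    exact fun i _ => hza i x hx.1.1
  have h4 := card_iInf_torsionBy_pow_le z (fun _ => a) (Finset.univ.erase j) U'
  rw [h3, Finset.prod_const, Finset.card_erase_of_mem (Finset.mem_univ j), Finset.card_univ] at h4
  have h5 : Nat.card ↥(U' ⊓ ⨅ i ∈ Finset.univ.erase j, torsionBy A X (z i)) ≤ p ^ d := by
    refine (card_le_of_le ?_).trans hsoc
    rintro x ⟨⟨⟨hxG, hxj⟩, hxp⟩, hx⟩
    refine ⟨⟨hxG, hxp⟩, ?_⟩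
    simp only [SetLike.mem_coe, Submodule.mem_iInf] at hx ⊢
    intro i
    by_cases hij : i = j
    · subst hij; exact hxj
    · exact hx i (Finset.mem_erase.2 ⟨hij, Finset.mem_univ i⟩)
  have ht : 1 ≤ Fintype.card ι := Fintype.card_pos_iff.2 ⟨j⟩
  calc Nat.card U ≤ Nat.card U' ^ a := h2
    _ ≤ ((p ^ d) ^ (a ^ (Fintype.card ι - 1))) ^ a :=
      Nat.pow_le_pow_left (h4.trans (Nat.pow_le_pow_left h5 _)) a
    _ = p ^ (d * a ^ Fintype.card ι) := by
      rw [← pow_mul, ← pow_mul, ← pow_succ, Nat.sub_add_cancel ht]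

/-- **[SHRINK]** `#G ≤ #((∏ z_i) G) * p^(t d a^t)`. -/
theorem card_le_card_prod_smul [Finite X] {ι : Type*} [Fintype ι] [DecidableEq ι] (p a d : ℕ)
    (z : ι → A) (G : Submodule A X) (hpa : ∀ x ∈ G, (p : A) ^ a • x = 0)
    (hza : ∀ i, ∀ x ∈ G, z i ^ a • x = 0)
    (hsoc : Nat.card ↥((G ⊓ torsionBy A X (p : A)) ⊓ ⨅ i, torsionBy A X (z i)) ≤ p ^ d) :
    Nat.card G ≤ Nat.card ↥(G.map (LinearMap.lsmul A X (∏ i, z i))) *
      p ^ (Fintype.card ι * (d * a ^ Fintype.card ι)) := by
  have key : ∀ I : Finset ι, Nat.card G ≤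
      Nat.card ↥(G.map (LinearMap.lsmul A X (∏ i ∈ I, z i))) *
        p ^ (I.card * (d * a ^ Fintype.card ι)) := by
    intro I
    induction I using Finset.induction_on with
    | empty =>
      have : G.map (LinearMap.lsmul A X (∏ i ∈ (∅ : Finset ι), z i)) = G := by
        rw [Finset.prod_empty]
        ext x
        simp
      rw [this]
      simp
    | insert j I hj ih =>
      set H := G.map (LinearMap.lsmul A X (∏ i ∈ I, z i)) with hH
      have hHG : H ≤ G := map_lsmul_le G _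
      have h1 := card_le_card_torsionBy_mul_map H (z j)
      have h2 : Nat.card ↥(H ⊓ torsionBy A X (z j)) ≤ p ^ (d * a ^ Fintype.card ι) :=
        (card_le_of_le (inf_le_inf_right _ hHG)).trans
          (card_torsionBy_le_of_box p a d z G hpa hza hsoc j)
      have h3 : H.map (LinearMap.lsmul A X (z j)) =
          G.map (LinearMap.lsmul A X (∏ i ∈ insert j I, z i)) := by
        rw [hH, ← Submodule.map_comp, Finset.prod_insert hj]
        congr 1
        refine LinearMap.ext fun x => ?_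
        show z j • (∏ i ∈ I, z i) • x = (z j * ∏ i ∈ I, z i) • x
        rw [mul_smul]
      rw [h3] at h1
      rw [Finset.card_insert_of_notMem hj]
      calc Nat.card G ≤ Nat.card H * p ^ (I.card * (d * a ^ Fintype.card ι)) := ih
        _ ≤ (p ^ (d * a ^ Fintype.card ι) *
              Nat.card ↥(G.map (LinearMap.lsmul A X (∏ i ∈ insert j I, z i)))) *
            p ^ (I.card * (d * a ^ Fintype.card ι)) :=
          Nat.mul_le_mul_right _ (h1.trans (Nat.mul_le_mul_right _ h2))
        _ = _ := by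
          rw [add_mul, one_mul, pow_add]
          ring
  have := key Finset.univ
  rwa [Finset.card_univ] at this

end Fermat.Agent.ML
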