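import Fermat.Agent.ML.Count.Slice

/-!
# ML / COUNT : `[TAU]`  the operators `h_i` of `[BOX]` from a tame generator `τ`

`τ` an `A`-linear automorphism of `X`, `z = τ + τ⁻¹ - 2`, `∑_{j < p^ν} τ^j = 0`, `p^a X = 0`, `2 a ≤ ν`.
With `y = τ - 1` : `∑_j τ^j = ∑_t binom(P, t+1) y^t`, `z^n = τ^(-n) y^(2n)`,
`h := ∑_{t ≥ 2a} binom(P, t+1) y^(t - 2a)`.
-/

set_option autoImplicit false

namespace Fermat.Agent.ML

open Polynomial Finset

theorem geom_binom (P : ℕ) : ∑ j ∈ range P, (1 + X : ℤ[X]) ^ j =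
    ∑ t ∈ range P, C ((P.choose (t + 1) : ℕ) : ℤ) * X ^ t := by
  apply mul_right_cancel₀ (X_ne_zero (R := ℤ))
  have h1 := geom_sum_mul (1 + X : ℤ[X]) P
  rw [add_sub_cancel_left] at h1
  rw [h1, add_comm 1 X, add_pow, sum_range_succ', sum_mul]
  simp only [one_pow, mul_one, pow_zero, Nat.choose_zero_right, Nat.cast_one, add_sub_cancel_right]
  refine sum_congr rfl fun t _ => ?_
  rw [pow_succ]
  simp only [map_natCast]
  ring

theorem geom_binom_eval {E : Type*} [Ring E] (y : E) (P : ℕ) :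
    ∑ j ∈ range P, (1 + y) ^ j = ∑ t ∈ range P, ((P.choose (t + 1) : ℕ) : E) * y ^ t := by
  have := congrArg (aeval y) (geom_binom P)
  simpa [map_sum] using this

theorem pow_dvd_choose_prime_pow {p ν a k : ℕ} (hp : p.Prime) (hν : 2 * a ≤ ν) (hk0 : k ≠ 0)
    (hk : k ≤ 2 * a) : p ^ a ∣ (p ^ ν).choose k := by
  have hkn : k ≤ p ^ ν := (hk.trans hν).trans (Nat.lt_pow_self hp.one_lt).le
  have h1 := Nat.factorization_choose_prime_pow hp hkn hk0
  have h2 : k.factorization p ≤ a := by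
    by_contra hcon
    rw [not_le] at hcon
    have h3 : p ^ (a + 1) ∣ k := (pow_dvd_pow p hcon).trans (Nat.ordProj_dvd k p)
    have h4 : p ^ (a + 1) ≤ k := Nat.le_of_dvd (Nat.pos_of_ne_zero hk0) h3
    have h5 : 2 ^ (a + 1) ≤ p ^ (a + 1) := Nat.pow_le_pow_left hp.two_le _
    have h6 : a < 2 ^ a := Nat.lt_two_pow_self
    rw [pow_succ] at h5
    omega
  rw [hp.pow_dvd_iff_le_factorization (Nat.choose_pos hkn).ne', h1]
  omega

variable {A : Type*} [CommRing A] {X : Type*} [AddCommGroup X] [Module A X]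

/-- **[TAU]** -/
theorem exists_h_of_tau {p ν a : ℕ} (hp : p.Prime) (hp2 : p ≠ 2) (hν : 2 * a ≤ ν)
    (τ τ' : X →ₗ[A] X) (h1 : ∀ x, τ (τ' x) = x) (h2 : ∀ x, τ' (τ x) = x) (z : A)
    (hz : ∀ x, z • x = τ x + τ' x - (2 : ℕ) • x)
    (hG : ∀ x, ∑ j ∈ range (p ^ ν), (τ ^ j) x = 0)
    (hpa : ∀ x : X, (p : A) ^ a • x = 0) :
    a ≤ (p ^ ν - 1) / 2 ∧ ∃ h : X →ₗ[A] X, (∀ x : X, z ^ a • h x = 0) ∧
      (∀ x : X, (p : A) • x = 0 → h x = 0 → z ^ ((p ^ ν - 1) / 2 - a) • x = 0) ∧
      (∀ x : X, (p : A) • x = 0 → z ^ ((p ^ ν - 1) / 2) • x = 0) := by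
  set P := p ^ ν with hP
  -- `P = 2 N + 1`
  have hodd : Odd P := (hp.odd_of_ne_two hp2).pow
  obtain ⟨N, hN⟩ := hodd
  have hN' : (P - 1) / 2 = N := by omega
  have hνP : ν < P := Nat.lt_pow_self hp.one_lt
  have haN : a ≤ N := by omega
  rw [hN']
  refine ⟨haN, ?_⟩
  set y : Module.End A X := τ - 1 with hy
  have hτy : τ = 1 + y := by rw [hy]; abel
  have hττ' : τ * τ' = 1 := LinearMap.ext h1
  have hτ'τ : τ' * τ = 1 := LinearMap.ext h2
  have hc : Commute τ' y := by
    rw [hy]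
    refine Commute.sub_right ?_ (Commute.one_right _)
    show τ' * τ = τ * τ'
    rw [hττ', hτ'τ]
  have hZ : algebraMap A (Module.End A X) z = τ' * y ^ 2 := by
    have e : τ' * y ^ 2 = τ' * τ * τ - 2 * (τ' * τ) + τ' := by
      rw [hy]; noncomm_ring
    rw [e, hτ'τ]
    ext x
    rw [Module.algebraMap_end_apply, hz]
    simp only [one_mul, mul_one, LinearMap.add_apply, LinearMap.sub_apply]
    have : (2 : Module.End A X) x = (2 : ℕ) • x := by
      exact Module.End.natCast_apply (R := A) 2 x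
    rw [this]
    abel
  have hZn : ∀ (n : ℕ) (x : X), z ^ n • x = (τ' ^ n) ((y ^ (2 * n)) x) := by
    intro n x
    have e : algebraMap A (Module.End A X) (z ^ n) = τ' ^ n * y ^ (2 * n) := by
      rw [map_pow, hZ, (hc.pow_right 2).mul_pow, ← pow_mul]
    have e2 := congrArg (fun f : Module.End A X => f x) e
    exact e2
  -- the relation
  have hG' : ∑ t ∈ range P, ((P.choose (t + 1) : ℕ) : Module.End A X) * y ^ t = 0 := by
    rw [← geom_binom_eval, ← hτy]
    ext x
    rw [LinearMap.sum_apply]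
    exact hG x
  have hpE : ((p ^ a : ℕ) : Module.End A X) = 0 := by
    ext x
    rw [Module.End.natCast_apply, LinearMap.zero_apply, ← Nat.cast_smul_eq_nsmul A, Nat.cast_pow]
    exact hpa x
  obtain ⟨P', hP'⟩ : ∃ P', P = 2 * a + (P' + 1) := ⟨P - 2 * a - 1, by omega⟩
  set h : Module.End A X :=
    ∑ s ∈ range (P' + 1), ((P.choose (2 * a + s + 1) : ℕ) : Module.End A X) * y ^ s with hh
  have hyh : y ^ (2 * a) * h = 0 := by
    have e1 := hG'
    rw [hP', sum_range_add] at e1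
    rw [← hP'] at e1
    have e2 : ∑ t ∈ range (2 * a), ((P.choose (t + 1) : ℕ) : Module.End A X) * y ^ t = 0 := by
      refine sum_eq_zero fun t ht => ?_
      rw [mem_range] at ht
      obtain ⟨c, hc⟩ := pow_dvd_choose_prime_pow (k := t + 1) hp hν (Nat.succ_ne_zero t) ht
      rw [← hP] at hc
      rw [hc, Nat.cast_mul, hpE, zero_mul, zero_mul]
    rw [e2, zero_add] at e1
    rw [hh, mul_sum, ← e1]
    refine sum_congr rfl fun s _ => ?_
    rw [pow_add, ← mul_assoc, ← mul_assoc, (Nat.cast_commute _ (y ^ (2 * a))).eq]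
  have hhp : ∀ x : X, (p : A) • x = 0 → h x = (y ^ P') x := by
    intro x hx
    rw [hh, LinearMap.sum_apply, sum_range_succ]
    have e1 : ∑ s ∈ range P', (((P.choose (2 * a + s + 1) : ℕ) : Module.End A X) * y ^ s) x = 0 := by
      refine sum_eq_zero fun s hs => ?_
      rw [mem_range] at hs
      have hd : p ∣ P.choose (2 * a + s + 1) :=
        hp.dvd_choose_pow (Nat.succ_ne_zero _) (by rw [← hP]; omega)
      obtain ⟨c, hc⟩ := hd
      rw [Module.End.mul_apply, Module.End.natCast_apply, ← map_nsmul, hc, mul_comm, mul_smul,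
        ← Nat.cast_smul_eq_nsmul A p x, hx, smul_zero, map_zero]
    rw [e1, zero_add, show 2 * a + P' + 1 = P by omega, Nat.choose_self, Nat.cast_one, one_mul]
  have hP'N : P' = 2 * (N - a) := by omega
  refine ⟨h, fun x => ?_, fun x hx hhx => ?_, fun x hx => ?_⟩
  · have e := congrArg (fun f : Module.End A X => f x) hyh
    simp only [Module.End.mul_apply, LinearMap.zero_apply] at e
    rw [hZn, e, map_zero]
  · rw [hZn, ← hP'N, ← hhp x hx, hhx, map_zero]
  · have e := congrArg (fun f : Module.End A X => f x) hyh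
    simp only [Module.End.mul_apply, LinearMap.zero_apply] at e
    rw [hZn, show 2 * N = 2 * a + P' by omega, pow_add, Module.End.mul_apply, ← hhp x hx, e,
      map_zero]

end Fermat.Agent.ML
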